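import Mathlib
import Fermat.Agent.F4.Ray.Defs

/-!
# F4 / GLOB: analytic second inequality with modulus — partial zeta functions

Definitions for the proof of `RayLBound` (owner helper56).
-/

set_option autoImplicit false

open NumberField
open scoped nonZeroDivisors Classical

namespace Fermat.Agent.F4Ray

/-- The partial zeta function of the value `g`:
`∑ N(I)^(-s)` over the nonzero ideals `I` prime to `m` with `cls I = g`. -/
noncomputable def rayZ (E : Type) [Field E] [NumberField E] (m : Ideal (𝓞 E)) {G : Type}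
    (cls : Ideal (𝓞 E) → G) (g : G) (s : ℝ) : ℝ :=
  ∑' I : Ideal (𝓞 E),
    if I ≠ ⊥ ∧ I ⊔ m = ⊤ ∧ cls I = g then ((Ideal.absNorm I : ℕ) : ℝ) ^ (-s) else 0

/-- The partial zeta function of the ideal class `C` and the value `g`:
`∑ N(I)^(-s)` over the nonzero ideals `I` of the class `C`, prime to `m`, with `cls I = g`. -/
noncomputable def rayZC (E : Type) [Field E] [NumberField E] (m : Ideal (𝓞 E)) {G : Type}
    (cls : Ideal (𝓞 E) → G) (C : ClassGroup (𝓞 E)) (g : G) (s : ℝ) : ℝ :=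
  ∑' I : {I : (Ideal (𝓞 E))⁰ // ClassGroup.mk0 I = C ∧ (I : Ideal (𝓞 E)) ⊔ m = ⊤ ∧
      cls (I : Ideal (𝓞 E)) = g},
    ((Ideal.absNorm ((I : (Ideal (𝓞 E))⁰) : Ideal (𝓞 E)) : ℕ) : ℝ) ^ (-s)

/-- **(RB1)** `L(s, f ∘ cls) = ∑_g f g * Z_g(s)`. -/
def RayLValEqSum : Prop :=
  ∀ (E : Type) [Field E] [NumberField E] (m : Ideal (𝓞 E)) (G : Type) [CommGroup G] [Fintype G]
    (cls : Ideal (𝓞 E) → G) (f : G → ℂ) (s : ℝ), 1 < s →
    rayLVal E m cls f s = ∑ g, f g * ((rayZ E m cls g s : ℝ) : ℂ)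

/-- **(RB2)** `Z_g(s) = ∑_C Z_{C, g}(s)`. -/
def RayZEqSum : Prop :=
  ∀ (E : Type) [Field E] [NumberField E] (m : Ideal (𝓞 E)) (G : Type)
    (cls : Ideal (𝓞 E) → G) (g : G) (s : ℝ), 1 < s →
    rayZ E m cls g s = ∑ C : ClassGroup (𝓞 E), rayZC E m cls C g s

/-- **(RB3)** the partial zeta functions of two values differ by a bounded function on `(1, 2]`. -/
def RayZDiffBounded : Prop :=
  ∀ (E : Type) [Field E] [NumberField E] (m : Ideal (𝓞 E)) (G : Type) [CommGroup G] [Fintype G]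
    (cls : Ideal (𝓞 E) → G), RayClassMap E m G cls → ∀ g g' : G,
    ∃ B : ℝ, ∀ s : ℝ, 1 < s → s ≤ 2 → |rayZ E m cls g s - rayZ E m cls g' s| ≤ B

/-- **(RB4)** the partial zeta functions of the classes: for `𝔠` prime to `m`,
`Z_{C, g * cls 𝔠} - Z_{C * [𝔠]⁻¹, g}` is bounded on `(1, 2]`. -/
def RayZCShiftBounded : Prop :=
  ∀ (E : Type) [Field E] [NumberField E] (m : Ideal (𝓞 E)) (G : Type) [CommGroup G] [Fintype G]
    (cls : Ideal (𝓞 E) → G), RayClassMap E m G cls →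
    ∀ (𝔠 : (Ideal (𝓞 E))⁰), (𝔠 : Ideal (𝓞 E)) ⊔ m = ⊤ → ∀ (C : ClassGroup (𝓞 E)) (g : G),
    ∃ B : ℝ, ∀ s : ℝ, 1 < s → s ≤ 2 →
      |rayZC E m cls C (g * cls (𝔠 : Ideal (𝓞 E))) s -
        rayZC E m cls (C * (ClassGroup.mk0 𝔠)⁻¹) g s| ≤ B

end Fermat.Agent.F4Ray
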