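import Mathlib
import Fermat.Agent.F4.Ray.LBoundDefs
import Fermat.Agent.Lib.FrobDensity.EulerZeta

/-!
# F4 / GLOB: analytic second inequality with modulus — bookkeeping (helper54)

Pure `tsum` bookkeeping for the partial zeta functions `rayZ`, `rayZC` of `LBoundDefs.lean`:

* `rayLValEqSum : RayLValEqSum`   (RB1)  `L(s, f ∘ cls) = ∑_g f g * Z_g(s)`;
* `rayZEqSum : RayZEqSum`         (RB2)  `Z_g = ∑_C Z_{C, g}`;
* `rayZDiffBounded_of_shift : RayZCShiftBounded → RayZDiffBounded`;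
* `rayLBound_of_rayZDiffBounded : RayZDiffBounded → RayLBound`.
-/

set_option autoImplicit false

open NumberField
open scoped nonZeroDivisors Classical

namespace Fermat.Agent.F4Ray

open Fermat.Agent.FrobDensity (normWeight summable_normWeight normWeight_nonneg)

section Terms

variable (E : Type) [Field E] [NumberField E] (m : Ideal (𝓞 E)) {G : Type}
  (cls : Ideal (𝓞 E) → G)

/-- the summand of `rayZ`. -/
noncomputable def rbTerm (g : G) (s : ℝ) (I : Ideal (𝓞 E)) : ℝ :=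
  if I ≠ ⊥ ∧ I ⊔ m = ⊤ ∧ cls I = g then ((Ideal.absNorm I : ℕ) : ℝ) ^ (-s) else 0

theorem rayZ_eq_tsum_rbTerm (g : G) (s : ℝ) :
    rayZ E m cls g s = ∑' I : Ideal (𝓞 E), rbTerm E m cls g s I := rfl

theorem rbTerm_nonneg (g : G) (s : ℝ) (I : Ideal (𝓞 E)) : 0 ≤ rbTerm E m cls g s I := by
  unfold rbTerm
  split_ifs
  · exact Real.rpow_nonneg (Nat.cast_nonneg _) _
  · exact le_rfl

theorem rbTerm_le (g : G) (s : ℝ) (I : Ideal (𝓞 E)) :
    rbTerm E m cls g s I ≤ normWeight E s I := by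
  unfold rbTerm
  split_ifs
  · exact le_rfl
  · exact normWeight_nonneg s I

theorem summable_rbTerm (g : G) {s : ℝ} (hs : 1 < s) : Summable (rbTerm E m cls g s) :=
  Summable.of_nonneg_of_le (rbTerm_nonneg E m cls g s) (rbTerm_le E m cls g s)
    (summable_normWeight E hs)

/-- the summand of `rayZC`, as a function on all ideals. -/
noncomputable def rbTermC (C : ClassGroup (𝓞 E)) (g : G) (s : ℝ) (I : Ideal (𝓞 E)) : ℝ :=
  if ∃ h : I ≠ ⊥, ClassGroup.mk0 ⟨I, mem_nonZeroDivisors_of_ne_zero h⟩ = C ∧ I ⊔ m = ⊤ ∧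
      cls I = g then ((Ideal.absNorm I : ℕ) : ℝ) ^ (-s) else 0

theorem rbTermC_nonneg (C : ClassGroup (𝓞 E)) (g : G) (s : ℝ) (I : Ideal (𝓞 E)) :
    0 ≤ rbTermC E m cls C g s I := by
  unfold rbTermC
  split_ifs
  · exact Real.rpow_nonneg (Nat.cast_nonneg _) _
  · exact le_rfl

theorem rbTermC_le (C : ClassGroup (𝓞 E)) (g : G) (s : ℝ) (I : Ideal (𝓞 E)) :
    rbTermC E m cls C g s I ≤ normWeight E s I := by
  unfold rbTermC
  split_ifs
  · exact le_rfl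
  · exact normWeight_nonneg s I

theorem summable_rbTermC (C : ClassGroup (𝓞 E)) (g : G) {s : ℝ} (hs : 1 < s) :
    Summable (rbTermC E m cls C g s) :=
  Summable.of_nonneg_of_le (rbTermC_nonneg E m cls C g s) (rbTermC_le E m cls C g s)
    (summable_normWeight E hs)

/-- the index set of `rayZC` as a subtype of all ideals. -/
noncomputable def rbEquiv (C : ClassGroup (𝓞 E)) (g : G) :
    {I : (Ideal (𝓞 E))⁰ // ClassGroup.mk0 I = C ∧ (I : Ideal (𝓞 E)) ⊔ m = ⊤ ∧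
      cls (I : Ideal (𝓞 E)) = g} ≃
    {I : Ideal (𝓞 E) // ∃ h : I ≠ ⊥, ClassGroup.mk0 ⟨I, mem_nonZeroDivisors_of_ne_zero h⟩ = C ∧
      I ⊔ m = ⊤ ∧ cls I = g} where
  toFun J := ⟨(J.1 : Ideal (𝓞 E)), nonZeroDivisors.coe_ne_zero J.1, J.2⟩
  invFun I := ⟨⟨I.1, mem_nonZeroDivisors_of_ne_zero I.2.choose⟩, I.2.choose_spec⟩
  left_inv _ := rfl
  right_inv _ := rfl

theorem tsum_rbTermC (C : ClassGroup (𝓞 E)) (g : G) (s : ℝ) :
    ∑' I, rbTermC E m cls C g s I = rayZC E m cls C g s := by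
  have h1 : ∑' I, rbTermC E m cls C g s I =
      ∑' I : {I : Ideal (𝓞 E) // ∃ h : I ≠ ⊥,
        ClassGroup.mk0 ⟨I, mem_nonZeroDivisors_of_ne_zero h⟩ = C ∧ I ⊔ m = ⊤ ∧ cls I = g},
        ((Ideal.absNorm (I : Ideal (𝓞 E)) : ℕ) : ℝ) ^ (-s) := by
    have h2 := tsum_subtype {I : Ideal (𝓞 E) | ∃ h : I ≠ ⊥,
        ClassGroup.mk0 ⟨I, mem_nonZeroDivisors_of_ne_zero h⟩ = C ∧ I ⊔ m = ⊤ ∧ cls I = g}
      (fun I : Ideal (𝓞 E) => ((Ideal.absNorm I : ℕ) : ℝ) ^ (-s))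
    refine Eq.trans ?_ h2.symm
    refine tsum_congr fun I ↦ ?_
    unfold rbTermC Set.indicator
    by_cases hI : ∃ h : I ≠ ⊥,
        ClassGroup.mk0 ⟨I, mem_nonZeroDivisors_of_ne_zero h⟩ = C ∧ I ⊔ m = ⊤ ∧ cls I = g
    · rw [if_pos hI, if_pos (show I ∈ {I : Ideal (𝓞 E) | ∃ h : I ≠ ⊥,
        ClassGroup.mk0 ⟨I, mem_nonZeroDivisors_of_ne_zero h⟩ = C ∧ I ⊔ m = ⊤ ∧ cls I = g}
        from hI)]
    · rw [if_neg hI, if_neg (show ¬ I ∈ {I : Ideal (𝓞 E) | ∃ h : I ≠ ⊥,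
        ClassGroup.mk0 ⟨I, mem_nonZeroDivisors_of_ne_zero h⟩ = C ∧ I ⊔ m = ⊤ ∧ cls I = g}
        from hI)]
  rw [h1, ← (rbEquiv E m cls C g).tsum_eq]
  rfl

/-- splitting by the ideal class. -/
theorem rbTerm_eq_sum (g : G) (s : ℝ) (I : Ideal (𝓞 E)) :
    rbTerm E m cls g s I = ∑ C : ClassGroup (𝓞 E), rbTermC E m cls C g s I := by
  by_cases hI : I = ⊥
  · subst hI
    have h0 : ∀ C : ClassGroup (𝓞 E), rbTermC E m cls C g s ⊥ = 0 := by
      intro C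
      unfold rbTermC
      rw [if_neg]
      rintro ⟨h, -⟩
      exact h rfl
    simp only [h0, Finset.sum_const_zero]
    unfold rbTerm
    rw [if_neg]
    rintro ⟨h, -⟩
    exact h rfl
  · rw [Finset.sum_eq_single (ClassGroup.mk0 ⟨I, mem_nonZeroDivisors_of_ne_zero hI⟩)]
    · unfold rbTerm rbTermC
      by_cases h : I ⊔ m = ⊤ ∧ cls I = g
      · rw [if_pos ⟨hI, h⟩, if_pos ⟨hI, rfl, h⟩]
      · rw [if_neg (fun h' => h h'.2), if_neg]
        rintro ⟨_, -, h'⟩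
        exact h h'
    · intro C _ hC
      unfold rbTermC
      rw [if_neg]
      rintro ⟨_, h', -⟩
      exact hC h'.symm
    · intro h
      exact absurd (Finset.mem_univ _) h

end Terms

/-- **(RB2)** `Z_g = ∑_C Z_{C, g}`. -/
theorem rayZEqSum : RayZEqSum := by
  intro E _ _ m G cls g s hs
  rw [rayZ_eq_tsum_rbTerm]
  calc ∑' I, rbTerm E m cls g s I = ∑' I, ∑ C : ClassGroup (𝓞 E), rbTermC E m cls C g s I :=
        tsum_congr fun I ↦ rbTerm_eq_sum E m cls g s I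
    _ = ∑ C : ClassGroup (𝓞 E), ∑' I, rbTermC E m cls C g s I :=
        Summable.tsum_finsetSum fun C _ ↦ summable_rbTermC E m cls C g hs
    _ = ∑ C : ClassGroup (𝓞 E), rayZC E m cls C g s :=
        Finset.sum_congr rfl fun C _ ↦ tsum_rbTermC E m cls C g s

/-- the weight of `rayLVal` is the combination of the terms of the `rayZ`. -/
theorem rayWeight_eq_sum (E : Type) [Field E] [NumberField E] (m : Ideal (𝓞 E)) {G : Type}
    [Fintype G] (cls : Ideal (𝓞 E) → G) (f : G → ℂ) (s : ℝ) (I : Ideal (𝓞 E)) :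
    rayWeight E m cls f s I = ∑ g, f g * ((rbTerm E m cls g s I : ℝ) : ℂ) := by
  unfold rayWeight
  by_cases hI : I ≠ ⊥ ∧ I ⊔ m = ⊤
  · rw [if_pos hI, Finset.sum_eq_single (cls I)]
    · unfold rbTerm
      rw [if_pos ⟨hI.1, hI.2, rfl⟩]
    · intro g _ hg
      unfold rbTerm
      rw [if_neg (fun h ↦ hg h.2.2.symm)]
      simp
    · intro h
      exact absurd (Finset.mem_univ _) h
  · rw [if_neg hI]
    symm
    refine Finset.sum_eq_zero fun g _ ↦ ?_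
    unfold rbTerm
    rw [if_neg (fun h ↦ hI ⟨h.1, h.2.1⟩)]
    simp

/-- **(RB1)** `L(s, f ∘ cls) = ∑_g f g * Z_g(s)`. -/
theorem rayLValEqSum : RayLValEqSum := by
  intro E _ _ m G _ _ cls f s hs
  unfold rayLVal
  have h1 : ∀ g, Summable fun I ↦ f g * ((rbTerm E m cls g s I : ℝ) : ℂ) := fun g ↦
    ((Complex.summable_ofReal).mpr (summable_rbTerm E m cls g hs)).mul_left _
  calc ∑' I, rayWeight E m cls f s I = ∑' I, ∑ g, f g * ((rbTerm E m cls g s I : ℝ) : ℂ) :=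
        tsum_congr fun I ↦ rayWeight_eq_sum E m cls f s I
    _ = ∑ g, ∑' I, f g * ((rbTerm E m cls g s I : ℝ) : ℂ) :=
        Summable.tsum_finsetSum fun g _ ↦ h1 g
    _ = ∑ g, f g * ((rayZ E m cls g s : ℝ) : ℂ) := by
        refine Finset.sum_congr rfl fun g _ ↦ ?_
        rw [tsum_mul_left, ← Complex.ofReal_tsum, rayZ_eq_tsum_rbTerm]

/-- **(RB3) from (RB4).** -/
theorem rayZDiffBounded_of_shift (h : RayZCShiftBounded) : RayZDiffBounded := by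
  intro E _ _ m G _ _ cls hcls g g'
  -- an ideal `𝔠` prime to `m` with `cls 𝔠 = g'⁻¹ * g`
  obtain ⟨𝔠, h𝔠0, h𝔠m, h𝔠⟩ := hcls.surj (g'⁻¹ * g)
  set 𝔠' : (Ideal (𝓞 E))⁰ := ⟨𝔠, mem_nonZeroDivisors_of_ne_zero h𝔠0⟩ with h𝔠'
  choose B hB using fun C : ClassGroup (𝓞 E) ↦ h E m G cls hcls 𝔠' h𝔠m C g'
  refine ⟨∑ C : ClassGroup (𝓞 E), B C, fun s hs1 hs2 ↦ ?_⟩
  have hg : g' * cls ((𝔠' : (Ideal (𝓞 E))⁰) : Ideal (𝓞 E)) = g := by
    show g' * cls 𝔠 = g
    rw [h𝔠, mul_inv_cancel_left]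
  have e1 : rayZ E m cls g s = ∑ C : ClassGroup (𝓞 E), rayZC E m cls C g s :=
    rayZEqSum E m G cls g s hs1
  have e2 : rayZ E m cls g' s =
      ∑ C : ClassGroup (𝓞 E), rayZC E m cls (C * (ClassGroup.mk0 𝔠')⁻¹) g' s := by
    rw [rayZEqSum E m G cls g' s hs1]
    exact (Equiv.sum_comp (Equiv.mulRight (ClassGroup.mk0 𝔠')⁻¹)
      (fun C ↦ rayZC E m cls C g' s)).symm
  rw [e1, e2, ← Finset.sum_sub_distrib]
  refine (Finset.abs_sum_le_sum_abs _ _).trans (Finset.sum_le_sum fun C _ ↦ ?_)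
  have := hB C s hs1 hs2
  rwa [hg] at this

/-- **(P4 with modulus) from (RB3).** -/
theorem rayLBound_of_rayZDiffBounded (h : RayZDiffBounded) : RayLBound := by
  intro E _ _ m G _ _ cls hcls f hf
  choose B hB using fun g ↦ h E m G cls hcls g 1
  refine ⟨∑ g, ‖f g‖ * B g, fun s hs1 hs2 ↦ ?_⟩
  rw [rayLValEqSum E m G cls f s hs1]
  have h0 : ∑ g, f g * ((rayZ E m cls g s : ℝ) : ℂ) =
      ∑ g, f g * ((rayZ E m cls g s - rayZ E m cls 1 s : ℝ) : ℂ) := by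
    have : ∑ g, f g * ((rayZ E m cls g s - rayZ E m cls 1 s : ℝ) : ℂ) =
        ∑ g, f g * ((rayZ E m cls g s : ℝ) : ℂ) - (∑ g, f g) * ((rayZ E m cls 1 s : ℝ) : ℂ) := by
      rw [Finset.sum_mul, ← Finset.sum_sub_distrib]
      refine Finset.sum_congr rfl fun g _ ↦ ?_
      push_cast
      ring
    rw [this, hf, zero_mul, sub_zero]
  rw [h0]
  refine (norm_sum_le _ _).trans (Finset.sum_le_sum fun g _ ↦ ?_)
  rw [norm_mul, Complex.norm_real, Real.norm_eq_abs]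
  exact mul_le_mul_of_nonneg_left (hB g s hs1 hs2) (norm_nonneg _)

end Fermat.Agent.F4Ray
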