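/-
F4 / GLOB, analytic second inequality with modulus: the weights of a character of a generalised
ideal class map, their Euler product in sieve form (ray port of S14/Analytic P5) and the local
character product (P6).  (helper26)
-/
import Mathlib
import Fermat.Agent.F4.Ray.Defs
import Fermat.Agent.S14.Analytic.EulerChar
import Fermat.Agent.S14.Analytic.CharProd
import Fermat.Agent.S14.Analytic.LProdLower

set_option autoImplicit false

open NumberField IsDedekindDomain Filter Topology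
open scoped nonZeroDivisors

namespace Fermat.Agent.F4Ray

open Fermat.Agent.FrobDensity Fermat.Agent.S14An

section weight

variable {E : Type} [Field E] [NumberField E] {m : Ideal (𝓞 E)} {G : Type} [CommGroup G]
  {cls : Ideal (𝓞 E) → G}

/-- The weight `ψ (cls I) N(I)^(-s)` attached to a character `ψ`. -/
noncomputable def chWeight (E : Type) [Field E] [NumberField E] (m : Ideal (𝓞 E)) {G : Type}
    [CommGroup G] (cls : Ideal (𝓞 E) → G) (ψ : G →* ℂˣ) (s : ℝ) : Ideal (𝓞 E) → ℂ :=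
  rayWeight E m cls (fun g => ((ψ g : ℂˣ) : ℂ)) s

theorem chWeight_of_coprime (ψ : G →* ℂˣ) (s : ℝ) {I : Ideal (𝓞 E)} (hI : I ≠ ⊥)
    (hIm : I ⊔ m = ⊤) :
    chWeight E m cls ψ s I = ((ψ (cls I) : ℂˣ) : ℂ) * ((normWeight E s I : ℝ) : ℂ) := by
  unfold chWeight rayWeight
  rw [if_pos ⟨hI, hIm⟩]
  rfl

theorem chWeight_of_not (ψ : G →* ℂˣ) (s : ℝ) {I : Ideal (𝓞 E)}
    (hI : ¬ (I ≠ ⊥ ∧ I ⊔ m = ⊤)) : chWeight E m cls ψ s I = 0 := by
  unfold chWeight rayWeight
  rw [if_neg hI]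

theorem chWeight_bot (ψ : G →* ℂˣ) (s : ℝ) : chWeight E m cls ψ s ⊥ = 0 :=
  chWeight_of_not ψ s (fun h => h.1 rfl)

theorem norm_char_eq_one' [Finite G] (ψ : G →* ℂˣ) (g : G) : ‖((ψ g : ℂˣ) : ℂ)‖ = 1 := by
  have hfin : ((ψ g : ℂˣ) : ℂ) ^ (orderOf g) = 1 := by
    rw [← Units.val_pow_eq_pow_val, ← map_pow, pow_orderOf_eq_one, map_one, Units.val_one]
  exact Complex.norm_eq_one_of_pow_eq_one hfin (orderOf_pos g).ne'

theorem norm_chWeight_of_coprime [Finite G] (ψ : G →* ℂˣ) (s : ℝ) {I : Ideal (𝓞 E)}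
    (hI : I ≠ ⊥) (hIm : I ⊔ m = ⊤) : ‖chWeight E m cls ψ s I‖ = normWeight E s I := by
  rw [chWeight_of_coprime ψ s hI hIm, norm_mul, norm_char_eq_one', one_mul, Complex.norm_real,
    Real.norm_eq_abs, abs_of_nonneg (normWeight_nonneg s I)]

theorem norm_chWeight_le [Finite G] (ψ : G →* ℂˣ) (s : ℝ) (I : Ideal (𝓞 E)) :
    ‖chWeight E m cls ψ s I‖ ≤ normWeight E s I := by
  by_cases h : I ≠ ⊥ ∧ I ⊔ m = ⊤
  · rw [norm_chWeight_of_coprime ψ s h.1 h.2]
  · rw [chWeight_of_not ψ s h, norm_zero]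
    exact normWeight_nonneg s I

theorem summable_norm_chWeight [Finite G] (ψ : G →* ℂˣ) {s : ℝ} (hs : 1 < s) :
    Summable (fun I => ‖chWeight E m cls ψ s I‖) :=
  Summable.of_nonneg_of_le (fun _ => norm_nonneg _) (fun I => norm_chWeight_le ψ s I)
    (summable_normWeight E hs)

theorem cls_top (h : RayClassMap E m G cls) : cls ⊤ = 1 := by
  have h1 := h.mul ⊤ ⊤ (top_sup_eq _) (top_sup_eq _)
  have h2 : (⊤ : Ideal (𝓞 E)) * ⊤ = ⊤ := by
    rw [← Ideal.one_eq_top, mul_one]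
  rw [h2] at h1
  exact (mul_eq_left (a := cls ⊤)).mp h1.symm

theorem chWeight_top (h : RayClassMap E m G cls) (ψ : G →* ℂˣ) (s : ℝ) :
    chWeight E m cls ψ s ⊤ = 1 := by
  rw [chWeight_of_coprime ψ s top_ne_bot (top_sup_eq _), cls_top h, map_one, normWeight_top]
  simp

omit [NumberField E] in
theorem mul_sup_eq_top {I J : Ideal (𝓞 E)} (hI : I ⊔ m = ⊤) (hJ : J ⊔ m = ⊤) :
    I * J ⊔ m = ⊤ := by
  rw [Ideal.mul_sup_eq_of_coprime_left hI, hJ]

theorem chWeight_mul (h : RayClassMap E m G cls) (ψ : G →* ℂˣ) (s : ℝ) (I J : Ideal (𝓞 E)) :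
    chWeight E m cls ψ s (I * J) = chWeight E m cls ψ s I * chWeight E m cls ψ s J := by
  by_cases hI : I ≠ ⊥ ∧ I ⊔ m = ⊤
  · by_cases hJ : J ≠ ⊥ ∧ J ⊔ m = ⊤
    · rw [chWeight_of_coprime ψ s (mul_ne_zero hI.1 hJ.1) (mul_sup_eq_top hI.2 hJ.2),
        chWeight_of_coprime ψ s hI.1 hI.2, chWeight_of_coprime ψ s hJ.1 hJ.2,
        h.mul I J hI.2 hJ.2, map_mul, Units.val_mul, normWeight_mul, Complex.ofReal_mul]
      ring
    · rw [chWeight_of_not ψ s hJ, mul_zero]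
      apply chWeight_of_not
      rintro ⟨h1, h2⟩
      apply hJ
      refine ⟨fun h0 => h1 (by rw [h0]; exact Ideal.mul_bot I), ?_⟩
      rw [eq_top_iff, ← h2]
      exact sup_le_sup_right Ideal.mul_le_right m
  · rw [chWeight_of_not ψ s hI, zero_mul]
    apply chWeight_of_not
    rintro ⟨h1, h2⟩
    apply hI
    refine ⟨fun h0 => h1 (by rw [h0]; exact Ideal.bot_mul J), ?_⟩
    rw [eq_top_iff, ← h2]
    exact sup_le_sup_right Ideal.mul_le_left m

end weight

section euler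

variable {E : Type} [Field E] [NumberField E] {m : Ideal (𝓞 E)} {G : Type} [CommGroup G]
  [Finite G] {cls : Ideal (𝓞 E) → G}

omit [Finite G] in
theorem rayLVal_eq_tsum_chWeight (ψ : G →* ℂˣ) (s : ℝ) :
    rayLVal E m cls (fun g => ((ψ g : ℂˣ) : ℂ)) s = ∑' I, chWeight E m cls ψ s I := rfl

/-- **(P5, ray form)** the Euler product of `L(s, ψ ∘ cls)` in sieve form. -/
theorem rayEuler (h : RayClassMap E m G cls) (ψ : G →* ℂˣ) {s : ℝ} (hs : 1 < s)
    (T : Finset (HeightOneSpectrum (𝓞 E))) :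
    2 - sieveSum (normWeight E s) T ≤
      ‖rayLVal E m cls (fun g => ((ψ g : ℂˣ) : ℂ)) s‖ *
        ∏ 𝔭 ∈ T, ‖1 - chWeight E m cls ψ s 𝔭.asIdeal‖ := by
  classical
  set w : Ideal (𝓞 E) → ℂ := chWeight E m cls ψ s with hw
  have hsumn : Summable fun I => ‖w I‖ := summable_norm_chWeight ψ hs
  have hsumw : Summable w := hsumn.of_norm
  have h1 := two_sub_sieveSum_le_norm_csieveSum (w := w) (chWeight_top h ψ s) hsumn T
  have h2 := csieveSum_eq_prod (w := w) (chWeight_mul h ψ s) (chWeight_bot ψ s) hsumw T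
  have h3 : sieveSum (fun I => ‖w I‖) T ≤ sieveSum (normWeight E s) T := by
    unfold sieveSum
    refine Summable.tsum_le_tsum (fun I => ?_) (hsumn.indicator _)
      ((summable_normWeight E hs).indicator _)
    by_cases hI : I ∈ sieveSet T
    · rw [Set.indicator_of_mem hI, Set.indicator_of_mem hI]
      exact norm_chWeight_le ψ s I
    · rw [Set.indicator_of_notMem hI, Set.indicator_of_notMem hI]
  rw [h2, norm_mul, norm_prod, mul_comm] at h1
  rw [rayLVal_eq_tsum_chWeight]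
  linarith

omit [Finite G] in
/-- **(P6, ray form)** the product over all characters of the Euler factors at a prime. -/
theorem rayCharProd [Fintype G] [Fintype (G →* ℂˣ)] {s : ℝ} (hs : 1 < s)
    (𝔭 : HeightOneSpectrum (𝓞 E)) :
    ∏ ψ : G →* ℂˣ, ‖1 - chWeight E m cls ψ s 𝔭.asIdeal‖ ≤
      Real.exp (-((Fintype.card G : ℝ) *
        (open scoped Classical in
          if 𝔭.asIdeal ⊔ m = ⊤ ∧ cls 𝔭.asIdeal = 1 then normWeight E s 𝔭.asIdeal else 0))) := by
  classical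
  set x : ℝ := normWeight E s 𝔭.asIdeal with hx
  have hx0 : 0 ≤ x := normWeight_nonneg s _
  have hx1 : x < 1 := normWeight_prime_lt_one hs.le 𝔭
  by_cases hm : 𝔭.asIdeal ⊔ m = ⊤
  · have hfac : ∀ ψ : G →* ℂˣ, ‖1 - chWeight E m cls ψ s 𝔭.asIdeal‖ =
        ‖1 - ((ψ (cls 𝔭.asIdeal) : ℂˣ) : ℂ) * ((x : ℝ) : ℂ)‖ := by
      intro ψ
      rw [chWeight_of_coprime ψ s 𝔭.ne_bot hm]
    simp only [hfac]
    have h6 := charProd G (cls 𝔭.asIdeal) x hx0 hx1
    by_cases hc : cls 𝔭.asIdeal = 1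
    · rw [h6.2 hc, if_pos ⟨hm, hc⟩]
      exact lpl_one_sub_pow_le_exp _ hx1.le
    · rw [if_neg (fun h => hc h.2)]
      simpa using h6.1
  · have hfac : ∀ ψ : G →* ℂˣ, ‖1 - chWeight E m cls ψ s 𝔭.asIdeal‖ = 1 := by
      intro ψ
      rw [chWeight_of_not ψ s (fun h => hm h.2), sub_zero, norm_one]
    simp only [hfac, Finset.prod_const_one]
    rw [if_neg (fun h => hm h.1)]
    simp

end euler

end Fermat.Agent.F4Ray
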