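/-
F4 / GLOB: the analytic second inequality with modulus from the boundedness of the `L`-values
(`RayLBound → SecondIneqRay`): ray port of S14/Analytic P8.  (helper26)

For the characters `ψ` of `G` put `P(s) = ∏_ψ ‖L(s, ψ ∘ cls)‖`.
* lower bound: `P(s) ≥ c (1/(s-1))^(|G|/n)` for `s → 1⁺` (`rayEuler`, `rayCharProd`, `rayPrimeSum`);
* upper bound: `P(s) ≤ C / (s-1)` on `(1, 2]` (`RayLBound` for `ψ ≠ 1`, `ζ_E` for `ψ = 1`);
hence `|G| ≤ n = [M : E]`.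
-/
import Mathlib
import Fermat.Agent.F4.Ray.RayEuler
import Fermat.Agent.F4.Ray.RayPrimes
import Fermat.Agent.S14.Analytic.LProdUpper

set_option autoImplicit false

open NumberField IsDedekindDomain Filter Topology
open scoped nonZeroDivisors

namespace Fermat.Agent.F4Ray

open Fermat.Agent.FrobDensity Fermat.Agent.S14An

/-- Two bounds `c u^(h/n) ≤ P ≤ C u`, `u = 1/(s-1) → ∞`, force `h ≤ n`. -/
theorem le_of_rpow_bounds {h n : ℕ} (hn0 : 0 < n) (P : ℝ → ℝ) {c δ C : ℝ} (hc : 0 < c)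
    (hδ : 0 < δ)
    (hlow : ∀ s : ℝ, 1 < s → s < 1 + δ → c * (1 / (s - 1)) ^ ((h : ℝ) / (n : ℝ)) ≤ P s)
    (hup : ∀ s : ℝ, 1 < s → s ≤ 2 → P s ≤ C / (s - 1)) : h ≤ n := by
  by_contra hcon
  rw [not_le] at hcon
  have hnr : (0 : ℝ) < (n : ℝ) := by exact_mod_cast hn0
  have hhn : (n : ℝ) < (h : ℝ) := by exact_mod_cast hcon
  set α : ℝ := (h : ℝ) / (n : ℝ) - 1 with hα
  have hαpos : 0 < α := by
    rw [hα, sub_pos, one_lt_div hnr]
    exact hhn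
  have hev : ∀ᶠ u : ℝ in atTop, C / c < u ^ α ∧ max (1 / δ) 1 < u :=
    ((tendsto_rpow_atTop hαpos).eventually_gt_atTop (C / c)).and
      (eventually_gt_atTop (max (1 / δ) 1))
  obtain ⟨u, hu1, hu2⟩ := hev.exists
  have hu_gt1 : 1 < u := lt_of_le_of_lt (le_max_right _ _) hu2
  have hu_gtδ : 1 / δ < u := lt_of_le_of_lt (le_max_left _ _) hu2
  have hupos : 0 < u := by linarith
  set s : ℝ := 1 + 1 / u with hs
  have hs1 : 1 < s := by
    rw [hs]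
    have : 0 < 1 / u := by positivity
    linarith
  have hsδ : s < 1 + δ := by
    rw [hs]
    have : 1 / u < δ := by
      rw [div_lt_iff₀ hupos]
      rw [div_lt_iff₀ hδ] at hu_gtδ
      linarith
    linarith
  have hs2 : s ≤ 2 := by
    rw [hs]
    have : 1 / u ≤ 1 := by rw [div_le_one hupos]; exact hu_gt1.le
    linarith
  have hsu : 1 / (s - 1) = u := by
    rw [hs]; field_simp; simp
  have h1 := hlow s hs1 hsδ
  have h2 := hup s hs1 hs2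
  rw [hsu] at h1
  have h3 : C / (s - 1) = C * u := by rw [← hsu]; ring
  rw [h3] at h2
  have h4 : c * u ^ ((h : ℝ) / (n : ℝ)) ≤ C * u := h1.trans h2
  have h5 : u ^ ((h : ℝ) / (n : ℝ)) = u ^ α * u := by
    have : (h : ℝ) / (n : ℝ) = α + 1 := by rw [hα]; ring
    rw [this, Real.rpow_add hupos, Real.rpow_one]
  rw [h5] at h4
  have h6 : c * u ^ α ≤ C := by
    have : c * u ^ α * u ≤ C * u := by linarith [h4, mul_assoc c (u ^ α) u]
    exact le_of_mul_le_mul_right this hupos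
  have h7 : u ^ α ≤ C / c := by
    rw [le_div_iff₀ hc]; linarith
  linarith

section

variable {E : Type} [Field E] [NumberField E] {m : Ideal (𝓞 E)} {G : Type} [CommGroup G]
  [Fintype G] [Fintype (G →* ℂˣ)] {cls : Ideal (𝓞 E) → G}

/-- `∏_ψ ‖L(s, ψ ∘ cls)‖` over the characters of `G`. -/
noncomputable def rayLProd (E : Type) [Field E] [NumberField E] (m : Ideal (𝓞 E)) {G : Type}
    [CommGroup G] [Fintype (G →* ℂˣ)] (cls : Ideal (𝓞 E) → G) (s : ℝ) : ℝ :=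
  ∏ ψ : G →* ℂˣ, ‖rayLVal E m cls (fun g => ((ψ g : ℂˣ) : ℂ)) s‖

/-- The key inequality at a finite level `T`. -/
theorem ray_finite_level (h : RayClassMap E m G cls) {s : ℝ} (hs : 1 < s)
    (T : Finset (HeightOneSpectrum (𝓞 E))) (hT : sieveSum (normWeight E s) T ≤ 2) :
    (2 - sieveSum (normWeight E s) T) ^ Fintype.card (G →* ℂˣ) *
      Real.exp ((Fintype.card G : ℝ) * ∑ 𝔭 ∈ T,
        (open scoped Classical in
          if 𝔭.asIdeal ⊔ m = ⊤ ∧ cls 𝔭.asIdeal = 1 then normWeight E s 𝔭.asIdeal else 0))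
      ≤ rayLProd E m cls s := by
  classical
  set Fac : (G →* ℂˣ) → HeightOneSpectrum (𝓞 E) → ℝ :=
    fun ψ 𝔭 => ‖1 - chWeight E m cls ψ s 𝔭.asIdeal‖ with hFac
  set y : HeightOneSpectrum (𝓞 E) → ℝ := fun 𝔭 =>
    if 𝔭.asIdeal ⊔ m = ⊤ ∧ cls 𝔭.asIdeal = 1 then normWeight E s 𝔭.asIdeal else 0 with hy
  have hP5 : ∀ ψ : G →* ℂˣ, 2 - sieveSum (normWeight E s) T ≤
      ‖rayLVal E m cls (fun g => ((ψ g : ℂˣ) : ℂ)) s‖ * ∏ 𝔭 ∈ T, Fac ψ 𝔭 :=
    fun ψ => rayEuler h ψ hs T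
  have hprod : (2 - sieveSum (normWeight E s) T) ^ Fintype.card (G →* ℂˣ) ≤
      ∏ ψ : G →* ℂˣ,
        (‖rayLVal E m cls (fun g => ((ψ g : ℂˣ) : ℂ)) s‖ * ∏ 𝔭 ∈ T, Fac ψ 𝔭) := by
    rw [← Finset.card_univ, ← Finset.prod_const]
    exact Finset.prod_le_prod (fun ψ _ => by linarith) (fun ψ _ => hP5 ψ)
  rw [Finset.prod_mul_distrib, Finset.prod_comm] at hprod
  have hP6 : ∀ 𝔭 : HeightOneSpectrum (𝓞 E),
      ∏ ψ : G →* ℂˣ, Fac ψ 𝔭 ≤ Real.exp (-((Fintype.card G : ℝ) * y 𝔭)) := by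
    intro 𝔭
    have := rayCharProd (E := E) (m := m) (G := G) (cls := cls) hs 𝔭
    simp only [hFac, hy]
    convert this using 4
  have hFac_nonneg : ∀ 𝔭 : HeightOneSpectrum (𝓞 E), 0 ≤ ∏ ψ : G →* ℂˣ, Fac ψ 𝔭 :=
    fun 𝔭 => Finset.prod_nonneg (fun ψ _ => norm_nonneg _)
  have hLnonneg : 0 ≤ rayLProd E m cls s :=
    Finset.prod_nonneg (fun ψ _ => norm_nonneg _)
  have hloc : ∏ 𝔭 ∈ T, ∏ ψ : G →* ℂˣ, Fac ψ 𝔭 ≤
      Real.exp (-((Fintype.card G : ℝ) * ∑ 𝔭 ∈ T, y 𝔭)) := by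
    calc ∏ 𝔭 ∈ T, ∏ ψ : G →* ℂˣ, Fac ψ 𝔭
        ≤ ∏ 𝔭 ∈ T, Real.exp (-((Fintype.card G : ℝ) * y 𝔭)) :=
          Finset.prod_le_prod (fun 𝔭 _ => hFac_nonneg 𝔭) (fun 𝔭 _ => hP6 𝔭)
      _ = Real.exp (-((Fintype.card G : ℝ) * ∑ 𝔭 ∈ T, y 𝔭)) := by
          rw [← Real.exp_sum, Finset.mul_sum, Finset.sum_neg_distrib]
  set S : ℝ := ∑ 𝔭 ∈ T, y 𝔭 with hS
  have h1 : (2 - sieveSum (normWeight E s) T) ^ Fintype.card (G →* ℂˣ) ≤
      rayLProd E m cls s * Real.exp (-((Fintype.card G : ℝ) * S)) :=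
    hprod.trans (mul_le_mul_of_nonneg_left hloc hLnonneg)
  have hexp : Real.exp (-((Fintype.card G : ℝ) * S)) * Real.exp ((Fintype.card G : ℝ) * S)
      = 1 := by
    rw [← Real.exp_add]; simp
  calc (2 - sieveSum (normWeight E s) T) ^ Fintype.card (G →* ℂˣ) *
        Real.exp ((Fintype.card G : ℝ) * S)
      ≤ (rayLProd E m cls s * Real.exp (-((Fintype.card G : ℝ) * S))) *
          Real.exp ((Fintype.card G : ℝ) * S) :=
        mul_le_mul_of_nonneg_right h1 (Real.exp_pos _).le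
    _ = rayLProd E m cls s := by rw [mul_assoc, hexp, mul_one]

/-- Lower bound for `rayLProd` near `s = 1`. -/
theorem rayLProd_lower (M : Type) [Field M] [NumberField M] [Algebra E M]
    (h : RayClassMap E m G cls)
    (hnorm : ∀ A : Ideal (𝓞 M), A ≠ ⊥ → Ideal.relNorm (𝓞 E) A ⊔ m = ⊤ →
      cls (Ideal.relNorm (𝓞 E) A) = 1) :
    ∃ c δ : ℝ, 0 < c ∧ 0 < δ ∧ ∀ s : ℝ, 1 < s → s < 1 + δ →
      c * (1 / (s - 1)) ^ ((Fintype.card G : ℝ) / (Module.finrank E M : ℝ)) ≤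
        rayLProd E m cls s := by
  classical
  obtain ⟨B, δ, hδ, hB⟩ := rayPrimeSum E M m h.m_ne_bot cls hnorm
  refine ⟨Real.exp (-((Fintype.card G : ℝ) * B)), δ, Real.exp_pos _, hδ, ?_⟩
  intro s hs1 hs2
  have hP7 := hB s hs1 hs2
  set x : HeightOneSpectrum (𝓞 E) → ℝ := fun 𝔭 => normWeight E s 𝔭.asIdeal with hx
  set y : HeightOneSpectrum (𝓞 E) → ℝ := fun 𝔭 =>
    if 𝔭.asIdeal ⊔ m = ⊤ ∧ cls 𝔭.asIdeal = 1 then x 𝔭 else 0 with hy
  have hx0 : ∀ 𝔭, 0 ≤ x 𝔭 := fun 𝔭 => normWeight_nonneg s _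
  have hsx : Summable x := summable_normWeight_prime E hs1
  have hy0 : ∀ 𝔭, 0 ≤ y 𝔭 := fun 𝔭 => by
    simp only [hy]; split_ifs <;> first | exact hx0 𝔭 | exact le_rfl
  have hyx : ∀ 𝔭, y 𝔭 ≤ x 𝔭 := fun 𝔭 => by
    simp only [hy]; split_ifs <;> first | exact hx0 𝔭 | exact le_rfl
  have hsy : Summable y := Summable.of_nonneg_of_le hy0 hyx hsx
  have hP7' : (1 / (Module.finrank E M : ℝ)) * Real.log (1 / (s - 1)) - B ≤ ∑' 𝔭, y 𝔭 := by
    refine hP7.trans (le_of_eq ?_)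
    refine tsum_congr fun 𝔭 => ?_
    simp only [hy, hx]
  have hlim1 : Tendsto (sieveSum (normWeight E s)) atTop (𝓝 1) :=
    tendsto_sieveSum (fun I => normWeight_nonneg s I) (normWeight_top s)
      (summable_normWeight E hs1)
  have hlim2 : Tendsto (fun T : Finset (HeightOneSpectrum (𝓞 E)) => ∑ 𝔭 ∈ T, y 𝔭) atTop
      (𝓝 (∑' 𝔭, y 𝔭)) := hsy.hasSum
  have hlim : Tendsto (fun T : Finset (HeightOneSpectrum (𝓞 E)) =>
      (2 - sieveSum (normWeight E s) T) ^ Fintype.card (G →* ℂˣ) *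
        Real.exp ((Fintype.card G : ℝ) * ∑ 𝔭 ∈ T, y 𝔭)) atTop
      (𝓝 ((2 - 1) ^ Fintype.card (G →* ℂˣ) *
        Real.exp ((Fintype.card G : ℝ) * ∑' 𝔭, y 𝔭))) :=
    ((tendsto_const_nhds.sub hlim1).pow _).mul
      ((Real.continuous_exp.tendsto _).comp (tendsto_const_nhds.mul hlim2))
  have hev : ∀ᶠ T in atTop, sieveSum (normWeight E s) T ≤ 2 :=
    hlim1.eventually (eventually_le_nhds (by norm_num : (1 : ℝ) < 2))
  have hbound : (2 - 1) ^ Fintype.card (G →* ℂˣ) *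
      Real.exp ((Fintype.card G : ℝ) * ∑' 𝔭, y 𝔭) ≤ rayLProd E m cls s := by
    refine le_of_tendsto hlim (hev.mono fun T hT => ?_)
    have := ray_finite_level h hs1 T hT
    convert this using 4
  have hbound' : Real.exp ((Fintype.card G : ℝ) * ∑' 𝔭, y 𝔭) ≤ rayLProd E m cls s := by
    have h21 : ((2 : ℝ) - 1) = 1 := by norm_num
    rwa [h21, one_pow, one_mul] at hbound
  have hpos : 0 < 1 / (s - 1) := by
    apply div_pos one_pos; linarith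
  calc Real.exp (-((Fintype.card G : ℝ) * B)) *
        (1 / (s - 1)) ^ ((Fintype.card G : ℝ) / (Module.finrank E M : ℝ))
      = Real.exp ((Fintype.card G : ℝ) *
          ((1 / (Module.finrank E M : ℝ)) * Real.log (1 / (s - 1)) - B)) := by
        rw [Real.rpow_def_of_pos hpos, ← Real.exp_add]
        congr 1
        ring
    _ ≤ Real.exp ((Fintype.card G : ℝ) * ∑' 𝔭, y 𝔭) :=
        Real.exp_le_exp.mpr (mul_le_mul_of_nonneg_left hP7' (Nat.cast_nonneg _))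
    _ ≤ rayLProd E m cls s := hbound'

omit [Fintype (G →* ℂˣ)] in
theorem norm_rayLVal_le_zetaSum (ψ : G →* ℂˣ) {s : ℝ} (hs : 1 < s) :
    ‖rayLVal E m cls (fun g => ((ψ g : ℂˣ) : ℂ)) s‖ ≤ zetaSum E s := by
  rw [rayLVal_eq_tsum_chWeight]
  unfold zetaSum
  have hsum : Summable (fun I => ‖chWeight E m cls ψ s I‖) := summable_norm_chWeight ψ hs
  calc ‖∑' I, chWeight E m cls ψ s I‖
      ≤ ∑' I, ‖chWeight E m cls ψ s I‖ := norm_tsum_le_tsum_norm hsum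
    _ ≤ ∑' I, normWeight E s I :=
        hsum.tsum_le_tsum (fun I => norm_chWeight_le ψ s I) (summable_normWeight E hs)

omit [Fintype (G →* ℂˣ)] in
theorem sum_char_eq_zero (ψ : G →* ℂˣ) (hψ : ψ ≠ 1) : ∑ g : G, ((ψ g : ℂˣ) : ℂ) = 0 := by
  have hne : ((Units.coeHom ℂ).comp ψ) ≠ 1 := by
    intro h
    apply hψ
    refine MonoidHom.ext fun g => ?_
    have := DFunLike.congr_fun h g
    ext
    simpa using this
  have := sum_hom_units_eq_zero ((Units.coeHom ℂ).comp ψ) hne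
  simpa using this

/-- Upper bound for `rayLProd` on `(1, 2]`. -/
theorem rayLProd_upper (hL : RayLBound) (h : RayClassMap E m G cls) :
    ∃ C : ℝ, ∀ s : ℝ, 1 < s → s ≤ 2 → rayLProd E m cls s ≤ C / (s - 1) := by
  classical
  obtain ⟨C₀, hC₀, hζ⟩ := p8u_exists_zetaSum_le E
  have hB : ∀ ψ : G →* ℂˣ, ∃ B : ℝ, ψ ≠ 1 →
      ∀ s : ℝ, 1 < s → s ≤ 2 → ‖rayLVal E m cls (fun g => ((ψ g : ℂˣ) : ℂ)) s‖ ≤ B := by
    intro ψ
    by_cases hψ : ψ = 1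
    · exact ⟨0, fun h => absurd hψ h⟩
    · obtain ⟨B, hB⟩ := hL E m G cls h (fun g => ((ψ g : ℂˣ) : ℂ)) (sum_char_eq_zero ψ hψ)
      exact ⟨B, fun _ => hB⟩
  choose B hB using hB
  refine ⟨C₀ * ∏ ψ ∈ (Finset.univ : Finset (G →* ℂˣ)).erase 1, B ψ, ?_⟩
  intro s hs hs2
  unfold rayLProd
  rw [← Finset.mul_prod_erase Finset.univ _ (Finset.mem_univ (1 : G →* ℂˣ))]
  have h1 : ‖rayLVal E m cls (fun g => (((1 : G →* ℂˣ) g : ℂˣ) : ℂ)) s‖ ≤ C₀ / (s - 1) :=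
    (norm_rayLVal_le_zetaSum (1 : G →* ℂˣ) hs).trans (hζ s hs hs2)
  have h2 : ∏ ψ ∈ (Finset.univ : Finset (G →* ℂˣ)).erase 1,
        ‖rayLVal E m cls (fun g => ((ψ g : ℂˣ) : ℂ)) s‖ ≤
      ∏ ψ ∈ (Finset.univ : Finset (G →* ℂˣ)).erase 1, B ψ := by
    refine Finset.prod_le_prod (fun ψ _ => norm_nonneg _) (fun ψ hψ => ?_)
    exact hB ψ (Finset.ne_of_mem_erase hψ) s hs hs2
  have h3 : 0 ≤ ∏ ψ ∈ (Finset.univ : Finset (G →* ℂˣ)).erase 1,
        ‖rayLVal E m cls (fun g => ((ψ g : ℂˣ) : ℂ)) s‖ :=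
    Finset.prod_nonneg (fun ψ _ => norm_nonneg _)
  have h4' : 0 ≤ C₀ / (s - 1) := div_nonneg hC₀ (by linarith)
  calc _ ≤ C₀ / (s - 1) * ∏ ψ ∈ (Finset.univ : Finset (G →* ℂˣ)).erase 1, B ψ :=
        mul_le_mul h1 h2 h3 h4'
    _ = _ := by ring

end

/-- **The analytic second inequality with modulus**, from the boundedness of the `L`-values. -/
theorem secondIneqRay_of_rayLBound (hL : RayLBound) : SecondIneqRay := by
  intro E M _ _ _ _ _ _ m G _ _ cls hRC hnorm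
  classical
  let _ : Fintype (G →* ℂˣ) := Fintype.ofFinite _
  obtain ⟨c, δ, hc, hδ, hlow⟩ := rayLProd_lower (E := E) (m := m) (cls := cls) M hRC hnorm
  obtain ⟨C, hup⟩ := rayLProd_upper (E := E) (m := m) (cls := cls) hL hRC
  exact le_of_rpow_bounds (Module.finrank_pos : 0 < Module.finrank E M)
    (rayLProd E m cls) hc hδ hlow hup

end Fermat.Agent.F4Ray
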