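import Fermat.Agent.F4.Ray.Shift
import Fermat.Agent.F4.Ray.Bookkeeping
import Fermat.Agent.F4.Ray.SecondIneqRay

/-!
# F4 / GLOB: the analytic second inequality with modulus, unconditionally

* `rayLBound : RayLBound`: for a generalised ideal class map `cls` of modulus `m` with values in a
  finite abelian group `G` and `f : G → ℂ` with `∑ f = 0`, the function
  `L(s, f ∘ cls) = ∑_{(I, m) = 1} f (cls I) N(I)^(-s)` is bounded on `(1, 2]`.
* `secondIneqRay : SecondIneqRay`: if moreover `cls` is trivial on the norms from a finite Galois
  extension `M` of `E`, then `#G ≤ [M : E]`.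
-/

namespace Fermat.Agent.F4Ray

/-- The partial zeta functions of two values differ by a bounded function on `(1, 2]`. -/
theorem rayZDiffBounded : RayZDiffBounded := rayZDiffBounded_of_shift rayZCShiftBounded

/-- `L(s, f ∘ cls)` is bounded on `(1, 2]` when `∑ f = 0`. -/
theorem rayLBound : RayLBound := rayLBound_of_rayZDiffBounded rayZDiffBounded

/-- **The analytic second inequality with modulus** (wide form). -/
theorem secondIneqRay : SecondIneqRay := secondIneqRay_of_rayLBound rayLBound

end Fermat.Agent.F4Ray
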