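import Mathlib
import Fermat.Agent.F4.Ray.Defs

/-!
# F4 / GLOB: basic properties of a generalised ideal class map

* `cls` of principal ideals prime to `m` only depends on the generator modulo `m`;
* the predicate `rayPred cls m h` on the generators;
* representatives of the ideal classes prime to `m`.
-/

set_option autoImplicit false
set_option linter.unusedSectionVars false

open NumberField
open scoped nonZeroDivisors Classical

namespace Fermat.Agent.F4Ray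

variable {E : Type} [Field E] [NumberField E] {m : Ideal (𝓞 E)} {G : Type} [CommGroup G]
  {cls : Ideal (𝓞 E) → G}

lemma span_sup_eq_top_of_sub_mem {γ γ' : 𝓞 E} (hγ : Ideal.span {γ} ⊔ m = ⊤)
    (hsub : γ' - γ ∈ m) : Ideal.span {γ'} ⊔ m = ⊤ := by
  rw [eq_top_iff, ← hγ]
  refine sup_le ?_ le_sup_right
  rw [Ideal.span_singleton_le_iff_mem]
  have h1 : γ = γ' - (γ' - γ) := by ring
  rw [h1]
  exact Ideal.sub_mem _ (Ideal.mem_sup_left (Ideal.mem_span_singleton_self _))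
    (Ideal.mem_sup_right hsub)

/-- For `γ` prime to `m` there is `t` with `t γ ≡ 1 mod m`. -/
lemma exists_mul_sub_one_mem {γ : 𝓞 E} (hγ : Ideal.span {γ} ⊔ m = ⊤) :
    ∃ t : 𝓞 E, t * γ - 1 ∈ m := by
  have h1 : (1 : 𝓞 E) ∈ Ideal.span {γ} ⊔ m := by rw [hγ]; trivial
  obtain ⟨x, hx, y, hy, hxy⟩ := Submodule.mem_sup.mp h1
  obtain ⟨t, rfl⟩ := Ideal.mem_span_singleton'.mp hx
  refine ⟨t, ?_⟩
  have : t * γ - 1 = -y := by rw [← hxy]; ring
  rw [this]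
  exact neg_mem hy

/-- `cls` of a principal ideal prime to `m` only depends on the generator modulo `m`. -/
lemma cls_span_eq_of_sub_mem (h : RayClassMap E m G cls) {γ γ' : 𝓞 E} (hγ0 : γ ≠ 0)
    (hγ'0 : γ' ≠ 0) (hγ : Ideal.span {γ} ⊔ m = ⊤) (hsub : γ' - γ ∈ m) :
    cls (Ideal.span {γ'}) = cls (Ideal.span {γ}) := by
  have hγ' : Ideal.span {γ'} ⊔ m = ⊤ := span_sup_eq_top_of_sub_mem hγ hsub
  obtain ⟨t, ht⟩ := exists_mul_sub_one_mem hγ
  have ht' : t * γ' - 1 ∈ m := by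
    have : t * γ' - 1 = (t * γ - 1) + t * (γ' - γ) := by ring
    rw [this]
    exact add_mem ht (Ideal.mul_mem_left _ _ hsub)
  by_cases ht0 : t = 0
  · -- then `m = ⊤`
    have h1 : (1 : 𝓞 E) ∈ m := by
      rw [ht0, zero_mul, zero_sub] at ht
      simpa using neg_mem ht
    have hm : m = ⊤ := (Ideal.eq_top_iff_one _).mpr h1
    rw [h.ray γ' hγ'0 (by rw [hm]; trivial), h.ray γ hγ0 (by rw [hm]; trivial)]
  · have htm : Ideal.span {t} ⊔ m = ⊤ := by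
      rw [Ideal.eq_top_iff_one]
      have : (1 : 𝓞 E) = γ * t - (t * γ - 1) := by ring
      rw [this]
      exact Ideal.sub_mem _
        (Ideal.mem_sup_left (Ideal.mul_mem_left _ _ (Ideal.mem_span_singleton_self _)))
        (Ideal.mem_sup_right ht)
    have e1 : cls (Ideal.span {t}) * cls (Ideal.span {γ}) = 1 := by
      rw [← h.mul _ _ htm hγ, Ideal.span_singleton_mul_span_singleton]
      exact h.ray _ (mul_ne_zero ht0 hγ0) ht
    have e2 : cls (Ideal.span {t}) * cls (Ideal.span {γ'}) = 1 := by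
      rw [← h.mul _ _ htm hγ', Ideal.span_singleton_mul_span_singleton]
      exact h.ray _ (mul_ne_zero ht0 hγ'0) ht'
    exact mul_left_cancel (e2.trans e1.symm)

/-- The condition "`(γ)` is prime to `m` and of value `h`", made invariant under the translations
by `m` (also when `m = ⊤`, `γ = 0`). -/
def rayPred (m : Ideal (𝓞 E)) (cls : Ideal (𝓞 E) → G) (h : G) (γ : 𝓞 E) : Prop :=
  Ideal.span {γ} ⊔ m = ⊤ ∧ ∀ γ' : 𝓞 E, γ' ≠ 0 → γ' - γ ∈ m → cls (Ideal.span {γ'}) = h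

lemma rayPred_iff (h : RayClassMap E m G cls) (g : G) {γ : 𝓞 E} (hγ0 : γ ≠ 0)
    (hγ : Ideal.span {γ} ⊔ m = ⊤) : rayPred m cls g γ ↔ cls (Ideal.span {γ}) = g := by
  constructor
  · intro hP
    exact hP.2 γ hγ0 (by simp)
  · intro hg
    refine ⟨hγ, fun γ' hγ'0 hsub ↦ ?_⟩
    rw [cls_span_eq_of_sub_mem h hγ0 hγ'0 hγ hsub, hg]

lemma rayPred_add_mem (g : G) {γ μ : 𝓞 E} (hμ : μ ∈ m) :
    rayPred m cls g (γ + μ) ↔ rayPred m cls g γ := by
  constructor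
  · rintro ⟨h1, h2⟩
    refine ⟨span_sup_eq_top_of_sub_mem h1 (by simpa using neg_mem hμ), fun γ' hγ'0 hsub ↦ ?_⟩
    refine h2 γ' hγ'0 ?_
    have : γ' - (γ + μ) = (γ' - γ) - μ := by ring
    rw [this]
    exact sub_mem hsub hμ
  · rintro ⟨h1, h2⟩
    refine ⟨span_sup_eq_top_of_sub_mem h1 (by simpa using hμ), fun γ' hγ'0 hsub ↦ ?_⟩
    refine h2 γ' hγ'0 ?_
    have : γ' - γ = (γ' - (γ + μ)) + μ := by ring
    rw [this]
    exact add_mem hsub hμ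

lemma rayPred_of_sub_mem (g : G) {γ γ' : 𝓞 E} (hsub : γ' - γ ∈ m) :
    rayPred m cls g γ' ↔ rayPred m cls g γ := by
  have : γ' = γ + (γ' - γ) := by ring
  rw [this]
  exact rayPred_add_mem g hsub

lemma rayPred_unit_mul (g : G) (u : (𝓞 E)ˣ) (γ : 𝓞 E) :
    rayPred m cls g ((u : 𝓞 E) * γ) ↔ rayPred m cls g γ := by
  have hspan : ∀ (v : (𝓞 E)ˣ) (x : 𝓞 E), Ideal.span {(v : 𝓞 E) * x} = Ideal.span {x} :=
    fun v x ↦ Ideal.span_singleton_eq_span_singleton.mpr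
      ⟨v⁻¹, by rw [mul_comm, ← mul_assoc]; simp⟩
  have key : ∀ (v : (𝓞 E)ˣ) (x : 𝓞 E), rayPred m cls g x → rayPred m cls g ((v : 𝓞 E) * x) := by
    rintro v x ⟨h1, h2⟩
    refine ⟨by rw [hspan]; exact h1, fun γ' hγ'0 hsub ↦ ?_⟩
    have h3 := h2 (((v⁻¹ : (𝓞 E)ˣ) : 𝓞 E) * γ') (mul_ne_zero (Units.ne_zero _) hγ'0) (by
      have : ((v⁻¹ : (𝓞 E)ˣ) : 𝓞 E) * γ' - x = ((v⁻¹ : (𝓞 E)ˣ) : 𝓞 E) * (γ' - (v : 𝓞 E) * x) := by
        rw [mul_sub, ← mul_assoc]; simp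
      rw [this]
      exact Ideal.mul_mem_left _ _ hsub)
    rwa [hspan] at h3
  constructor
  · intro hP
    have := key u⁻¹ _ hP
    rwa [← mul_assoc, Units.inv_mul, one_mul] at this
  · exact key u γ

/-- Every ideal class contains an integral ideal prime to `m`. -/
lemma exists_rep_coprime (hm : m ≠ ⊥) (c : ClassGroup (𝓞 E)) :
    ∃ I : (Ideal (𝓞 E))⁰, ClassGroup.mk0 I = c ∧ (I : Ideal (𝓞 E)) ⊔ m = ⊤ := by
  obtain ⟨J, hJ⟩ := ClassGroup.mk0_surjective c⁻¹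
  have hJ0 : (J : Ideal (𝓞 E)) ≠ ⊥ := nonZeroDivisors.coe_ne_zero J
  obtain ⟨a, ha⟩ := IsDedekindDomain.exists_sup_span_eq
    (I := (J : Ideal (𝓞 E)) * m) (J := (J : Ideal (𝓞 E))) Ideal.mul_le_left
    (mul_ne_zero hJ0 hm)
  have haJ : a ∈ (J : Ideal (𝓞 E)) := by
    rw [← ha]; exact Ideal.mem_sup_right (Ideal.mem_span_singleton_self a)
  obtain ⟨K, hK⟩ : (J : Ideal (𝓞 E)) ∣ Ideal.span {a} :=
    Ideal.dvd_iff_le.mpr ((Ideal.span_singleton_le_iff_mem _).mpr haJ)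
  have hcop : m ⊔ K = ⊤ := by
    have h1 : (J : Ideal (𝓞 E)) * (m ⊔ K) = (J : Ideal (𝓞 E)) * ⊤ := by
      rw [Ideal.mul_sup, ← hK, ha, Ideal.mul_top]
    exact mul_left_cancel₀ hJ0 h1
  by_cases hK0 : K = ⊥
  · -- then `m = ⊤` and any representative works
    have hmtop : m = ⊤ := by rw [hK0, sup_bot_eq] at hcop; exact hcop
    obtain ⟨I, hI⟩ := ClassGroup.mk0_surjective c
    exact ⟨I, hI, by rw [hmtop]; simp⟩
  · have hKmem : K ∈ (Ideal (𝓞 E))⁰ := mem_nonZeroDivisors_of_ne_zero hK0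
    refine ⟨⟨K, hKmem⟩, ?_, by rw [sup_comm]; exact hcop⟩
    have hprod : ClassGroup.mk0 J * ClassGroup.mk0 ⟨K, hKmem⟩ = 1 := by
      rw [← map_mul, ClassGroup.mk0_eq_one_iff]
      have : ((J * ⟨K, hKmem⟩ : (Ideal (𝓞 E))⁰) : Ideal (𝓞 E)) = Ideal.span {a} := by
        rw [hK]; rfl
      rw [this]
      exact ⟨⟨a, rfl⟩⟩
    rw [hJ] at hprod
    exact (inv_mul_eq_one.mp hprod).symm ▸ rfl

end Fermat.Agent.F4Ray
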