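import Fermat.Agent.F4.Ray.Defs
import Fermat.Agent.S14.ClassZeta.LatticeSum

/-!
# F4 / GLOB: the orbit identity with a unit-invariant condition (RU3')

`ClassZetaLatticeSumPred`: for an integral ideal `J` in the class `c⁻¹` and a predicate `P` on
`𝓞 E` which is invariant under multiplication by units, the ideals `I` of the class `c` such that
`I * J = (γ)` with `P γ` correspond to the elements `γ ∈ J`, `γ ≠ 0`, with `P γ`, up to units; hence

`∑_I (N I) ^ (-s) = (N J) ^ s / w * ∑_{γ ∈ J, P γ} cutoff (logMap γ) * |N γ| ^ (-s)`.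
-/

set_option autoImplicit false
set_option linter.unusedSectionVars false

open NumberField NumberField.mixedEmbedding NumberField.Units
  NumberField.Units.dirichletUnitTheorem
open scoped nonZeroDivisors Classical

namespace Fermat.Agent.F4Ray

open Fermat.Agent.S14

variable {E : Type*} [Field E] [NumberField E]

section Main

variable (c : ClassGroup (𝓞 E)) (J : (Ideal (𝓞 E))⁰) (P : 𝓞 E → Prop)
  (hP : ∀ (u : (𝓞 E)ˣ) (γ : 𝓞 E), P ((u : 𝓞 E) * γ) ↔ P γ)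

/-- The ideals of the class `c` such that `I * J` has a generator satisfying `P`. -/
abbrev PredIdeals : Type _ :=
  {I : (Ideal (𝓞 E))⁰ // ClassGroup.mk0 I = c ∧
    ∃ γ : 𝓞 E, Ideal.span {γ} = (I : Ideal (𝓞 E)) * (J : Ideal (𝓞 E)) ∧ P γ}

/-- A generator of `I * J` satisfying `P`. -/
noncomputable def predGen (I : PredIdeals c J P) : 𝓞 E := I.2.2.choose

lemma span_predGen (I : PredIdeals c J P) :
    Ideal.span {predGen c J P I} =
      ((I : (Ideal (𝓞 E))⁰) : Ideal (𝓞 E)) * (J : Ideal (𝓞 E)) :=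
  I.2.2.choose_spec.1

lemma predGen_pred (I : PredIdeals c J P) : P (predGen c J P I) := I.2.2.choose_spec.2

lemma predGen_mem (I : PredIdeals c J P) : predGen c J P I ∈ (J : Ideal (𝓞 E)) := by
  have h : predGen c J P I ∈ Ideal.span {predGen c J P I} := Ideal.mem_span_singleton_self _
  rw [span_predGen] at h
  exact Ideal.mul_le_right h

lemma predGen_ne_zero (I : PredIdeals c J P) : predGen c J P I ≠ 0 := by
  intro h0
  have h := span_predGen c J P I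
  rw [h0, Ideal.span_singleton_eq_bot.mpr rfl] at h
  have h1 : ((I : (Ideal (𝓞 E))⁰) : Ideal (𝓞 E)) ≠ 0 := nonZeroDivisors.coe_ne_zero _
  have h2 : (J : Ideal (𝓞 E)) ≠ 0 := nonZeroDivisors.coe_ne_zero _
  exact mul_ne_zero h1 h2 h.symm

lemma absNorm_span_predGen (I : PredIdeals c J P) :
    Ideal.absNorm (Ideal.span {predGen c J P I}) =
      Ideal.absNorm ((I : (Ideal (𝓞 E))⁰) : Ideal (𝓞 E)) * Ideal.absNorm (J : Ideal (𝓞 E)) := by
  rw [span_predGen, map_mul]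

/-- The map `(I, u) ↦ u * g_I`. -/
noncomputable def predMap (p : PredIdeals c J P × (𝓞 E)ˣ) : (J : Ideal (𝓞 E)) :=
  ⟨(p.2 : 𝓞 E) * predGen c J P p.1, Ideal.mul_mem_left _ _ (predGen_mem c J P p.1)⟩

lemma predMap_coe (p : PredIdeals c J P × (𝓞 E)ˣ) :
    ((predMap c J P p : (J : Ideal (𝓞 E))) : 𝓞 E) = (p.2 : 𝓞 E) * predGen c J P p.1 := rfl

include hP in
lemma predMap_pred (p : PredIdeals c J P × (𝓞 E)ˣ) :
    P ((predMap c J P p : (J : Ideal (𝓞 E))) : 𝓞 E) := by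
  rw [predMap_coe, hP]
  exact predGen_pred c J P p.1

lemma predMap_injective : Function.Injective (predMap c J P) := by
  rintro ⟨I, u⟩ ⟨I', u'⟩ h
  have h1 : (u : 𝓞 E) * predGen c J P I = (u' : 𝓞 E) * predGen c J P I' := by
    have := congrArg (fun γ : (J : Ideal (𝓞 E)) => (γ : 𝓞 E)) h
    simpa [predMap_coe] using this
  have hspan : Ideal.span {predGen c J P I} = Ideal.span {predGen c J P I'} := by
    rw [Ideal.span_singleton_eq_span_singleton]
    refine ⟨u'⁻¹ * u, ?_⟩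
    have : predGen c J P I' = (↑(u'⁻¹) : 𝓞 E) * ((u : 𝓞 E) * predGen c J P I) := by
      rw [h1, ← mul_assoc, ← Units.val_mul, inv_mul_cancel, Units.val_one, one_mul]
    rw [this, Units.val_mul]; ring
  rw [span_predGen, span_predGen] at hspan
  have hJ0 : (J : Ideal (𝓞 E)) ≠ 0 := nonZeroDivisors.coe_ne_zero _
  have hI : ((I : (Ideal (𝓞 E))⁰) : Ideal (𝓞 E)) = ((I' : (Ideal (𝓞 E))⁰) : Ideal (𝓞 E)) :=
    mul_right_cancel₀ hJ0 hspan
  have hI' : I = I' := Subtype.ext (Subtype.ext hI)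
  subst hI'
  have hu : (u : 𝓞 E) = (u' : 𝓞 E) := mul_right_cancel₀ (predGen_ne_zero c J P I) h1
  rw [Units.ext hu]

variable (hJ : ClassGroup.mk0 J = c⁻¹)

include hJ in
lemma mem_range_predMap (γ : (J : Ideal (𝓞 E))) (hγ : (γ : 𝓞 E) ≠ 0) (hPγ : P (γ : 𝓞 E)) :
    γ ∈ Set.range (predMap c J P) := by
  have hle : Ideal.span {(γ : 𝓞 E)} ≤ (J : Ideal (𝓞 E)) :=
    (Ideal.span_singleton_le_iff_mem _).mpr γ.2
  obtain ⟨I₀, hI₀⟩ := Ideal.dvd_iff_le.mpr hle
  have hspan0 : Ideal.span {(γ : 𝓞 E)} ≠ 0 := by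
    rw [Ne, Ideal.zero_eq_bot, Ideal.span_singleton_eq_bot]; exact hγ
  have hI₀0 : I₀ ≠ 0 := by
    rintro rfl
    rw [mul_zero] at hI₀
    exact hspan0 hI₀
  have hI₀mem : I₀ ∈ (Ideal (𝓞 E))⁰ := mem_nonZeroDivisors_iff_ne_zero.mpr hI₀0
  have hspanmem : Ideal.span {(γ : 𝓞 E)} ∈ (Ideal (𝓞 E))⁰ :=
    mem_nonZeroDivisors_iff_ne_zero.mpr hspan0
  have h1 : ClassGroup.mk0 ⟨Ideal.span {(γ : 𝓞 E)}, hspanmem⟩ = 1 :=
    (ClassGroup.mk0_eq_one_iff hspanmem).mpr ⟨⟨_, rfl⟩⟩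
  have h2 : (⟨Ideal.span {(γ : 𝓞 E)}, hspanmem⟩ : (Ideal (𝓞 E))⁰) = J * ⟨I₀, hI₀mem⟩ :=
    Subtype.ext hI₀
  have hcls : ClassGroup.mk0 (⟨I₀, hI₀mem⟩ : (Ideal (𝓞 E))⁰) = c := by
    rw [h2, map_mul, hJ] at h1
    exact (inv_mul_eq_one.mp h1).symm
  let I : PredIdeals c J P := ⟨⟨I₀, hI₀mem⟩, hcls, (γ : 𝓞 E), by rw [hI₀, mul_comm], hPγ⟩
  have hgen : Ideal.span {predGen c J P I} = Ideal.span {(γ : 𝓞 E)} := by
    rw [span_predGen, hI₀, mul_comm]
  obtain ⟨u, hu⟩ := Ideal.span_singleton_eq_span_singleton.mp hgen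
  refine ⟨(I, u), Subtype.ext ?_⟩
  rw [predMap_coe, mul_comm]
  exact hu

/-- The weight of a lattice point. -/
noncomputable def predF (s : ℝ) (γ : 𝓞 E) : ℝ :=
  if P γ then czF E (cutoff E) s (mixedEmbedding E (γ : E)) else 0

lemma predF_nonneg (s : ℝ) (γ : 𝓞 E) : 0 ≤ predF P s γ := by
  unfold predF
  split_ifs
  · exact czF_nonneg s _
  · exact le_rfl

include hP in
lemma predF_predMap (s : ℝ) (p : PredIdeals c J P × (𝓞 E)ˣ) :
    predF P s ((predMap c J P p : (J : Ideal (𝓞 E))) : 𝓞 E) =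
      cutoff E (logEmbedding E (Additive.ofMul p.2) +
          logMap (mixedEmbedding E ((predGen c J P p.1 : 𝓞 E) : E))) *
        ((((Ideal.absNorm ((p.1 : (Ideal (𝓞 E))⁰) : Ideal (𝓞 E)) : ℕ) : ℝ)) ^ (-s) *
          (((Ideal.absNorm (J : Ideal (𝓞 E)) : ℕ) : ℝ)) ^ (-s)) := by
  rw [predF, if_pos (predMap_pred c J P hP p), predMap_coe,
    czF_unit_mul _ _ _ _ (predGen_ne_zero c J P p.1), absNorm_span_predGen,
    Nat.cast_mul, Real.mul_rpow (Nat.cast_nonneg _) (Nat.cast_nonneg _)]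

include hP in
lemma hasSum_predF_units (s : ℝ) (I : PredIdeals c J P) :
    HasSum (fun u : (𝓞 E)ˣ => predF P s ((predMap c J P (I, u) : (J : Ideal (𝓞 E))) : 𝓞 E))
      ((torsionOrder E : ℝ) *
        ((((Ideal.absNorm ((I : (Ideal (𝓞 E))⁰) : Ideal (𝓞 E)) : ℕ) : ℝ)) ^ (-s) *
          (((Ideal.absNorm (J : Ideal (𝓞 E)) : ℕ) : ℝ)) ^ (-s))) := by
  have h := (hasSum_cutoff_units E
    (logMap (mixedEmbedding E ((predGen c J P I : 𝓞 E) : E)))).mul_right
    ((((Ideal.absNorm ((I : (Ideal (𝓞 E))⁰) : Ideal (𝓞 E)) : ℕ) : ℝ)) ^ (-s) *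
          (((Ideal.absNorm (J : Ideal (𝓞 E)) : ℕ) : ℝ)) ^ (-s))
  refine h.congr_fun ?_
  intro u
  exact predF_predMap c J P hP s (I, u)

lemma summable_predIdeals {s : ℝ} (hs : 1 < s) :
    Summable (fun I : PredIdeals c J P =>
      ((Ideal.absNorm ((I : (Ideal (𝓞 E))⁰) : Ideal (𝓞 E)) : ℕ) : ℝ) ^ (-s)) := by
  have h := Fermat.Agent.FrobDensity.summable_normWeight E hs
  have hinj : Function.Injective
      (fun I : PredIdeals c J P => ((I : (Ideal (𝓞 E))⁰) : Ideal (𝓞 E))) :=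
    fun a b hab => Subtype.ext (Subtype.ext hab)
  exact h.comp_injective hinj

include hP in
lemma summable_predF_comp_predMap {s : ℝ} (hs : 1 < s) :
    Summable (fun p : PredIdeals c J P × (𝓞 E)ˣ =>
      predF P s ((predMap c J P p : (J : Ideal (𝓞 E))) : 𝓞 E)) := by
  rw [summable_prod_of_nonneg (fun p => predF_nonneg P s _)]
  refine ⟨fun I => (hasSum_predF_units c J P hP s I).summable, ?_⟩
  have h : (fun I : PredIdeals c J P =>
      ∑' u : (𝓞 E)ˣ, predF P s ((predMap c J P (I, u) : (J : Ideal (𝓞 E))) : 𝓞 E)) =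
      fun I : PredIdeals c J P =>
        ((torsionOrder E : ℝ) * (((Ideal.absNorm (J : Ideal (𝓞 E)) : ℕ) : ℝ)) ^ (-s)) *
        (((Ideal.absNorm ((I : (Ideal (𝓞 E))⁰) : Ideal (𝓞 E)) : ℕ) : ℝ)) ^ (-s) := by
    funext I
    rw [(hasSum_predF_units c J P hP s I).tsum_eq]
    ring
  rw [h]
  exact (summable_predIdeals c J P hs).mul_left _

include hP in
lemma tsum_predF_comp_predMap {s : ℝ} (hs : 1 < s) :
    ∑' p : PredIdeals c J P × (𝓞 E)ˣ,
      predF P s ((predMap c J P p : (J : Ideal (𝓞 E))) : 𝓞 E) =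
      ((torsionOrder E : ℝ) * (((Ideal.absNorm (J : Ideal (𝓞 E)) : ℕ) : ℝ)) ^ (-s)) *
        ∑' I : PredIdeals c J P,
          ((Ideal.absNorm ((I : (Ideal (𝓞 E))⁰) : Ideal (𝓞 E)) : ℕ) : ℝ) ^ (-s) := by
  rw [(summable_predF_comp_predMap c J P hP hs).tsum_prod'
    (fun I => (hasSum_predF_units c J P hP s I).summable)]
  rw [← tsum_mul_left]
  refine tsum_congr fun I => ?_
  rw [(hasSum_predF_units c J P hP s I).tsum_eq]
  ring

include hJ in
lemma predF_eq_zero_of_not_mem_range (s : ℝ) (γ : (J : Ideal (𝓞 E)))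
    (hγ : γ ∉ Set.range (predMap c J P)) : predF P s (γ : 𝓞 E) = 0 := by
  by_cases hPγ : P (γ : 𝓞 E)
  · have h0 : (γ : 𝓞 E) = 0 := by
      by_contra hne
      exact hγ (mem_range_predMap c J P hJ γ hne hPγ)
    rw [predF, if_pos hPγ, h0]
    exact czF_zero _ _
  · rw [predF, if_neg hPγ]

include hP hJ in
theorem predZeta_eq_lattice_sum {s : ℝ} (hs : 1 < s) :
    Summable (fun γ : (J : Ideal (𝓞 E)) => predF P s (γ : 𝓞 E)) ∧
      ∑' I : PredIdeals c J P,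
          ((Ideal.absNorm ((I : (Ideal (𝓞 E))⁰) : Ideal (𝓞 E)) : ℕ) : ℝ) ^ (-s) =
        ((Ideal.absNorm (J : Ideal (𝓞 E)) : ℕ) : ℝ) ^ s / (torsionOrder E : ℝ) *
          ∑' γ : (J : Ideal (𝓞 E)), predF P s (γ : 𝓞 E) := by
  have hsum : Summable (fun γ : (J : Ideal (𝓞 E)) => predF P s (γ : 𝓞 E)) :=
    ((predMap_injective c J P).summable_iff
      (fun γ hγ => predF_eq_zero_of_not_mem_range c J P hJ s γ hγ)).mp
      (summable_predF_comp_predMap c J P hP hs)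
  refine ⟨hsum, ?_⟩
  have hsupp : Function.support (fun γ : (J : Ideal (𝓞 E)) => predF P s (γ : 𝓞 E)) ⊆
      Set.range (predMap c J P) := by
    intro γ hγ
    by_contra hcon
    exact hγ (predF_eq_zero_of_not_mem_range c J P hJ s γ hcon)
  rw [← (predMap_injective c J P).tsum_eq hsupp, tsum_predF_comp_predMap c J P hP hs]
  have hw : (torsionOrder E : ℝ) ≠ 0 := by
    have : torsionOrder E ≠ 0 := torsionOrder_ne_zero E
    exact_mod_cast this
  have hN : (0 : ℝ) < ((Ideal.absNorm (J : Ideal (𝓞 E)) : ℕ) : ℝ) := by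
    have : Ideal.absNorm (J : Ideal (𝓞 E)) ≠ 0 := Ideal.absNorm_ne_zero_of_nonZeroDivisors J
    exact_mod_cast Nat.pos_of_ne_zero this
  have hpow : ((Ideal.absNorm (J : Ideal (𝓞 E)) : ℕ) : ℝ) ^ s *
      ((Ideal.absNorm (J : Ideal (𝓞 E)) : ℕ) : ℝ) ^ (-s) = 1 := by
    rw [← Real.rpow_add hN, add_neg_cancel, Real.rpow_zero]
  field_simp
  linear_combination
    (-(∑' I : PredIdeals c J P,
      ((Ideal.absNorm ((I : (Ideal (𝓞 E))⁰) : Ideal (𝓞 E)) : ℕ) : ℝ) ^ (-s))) * hpow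

end Main

/-- **(RU3')** -/
theorem classZetaLatticeSumPred : ClassZetaLatticeSumPred := fun _ _ _ c J hJ P hP _ hs =>
  predZeta_eq_lattice_sum c J P hP hJ hs

end Fermat.Agent.F4Ray
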