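import Mathlib
import Fermat.Agent.S14.CZ.Compare

/-!
# F4 / GLOB: comparison of a weighted sum over a group with the sum over a subgroup of finite index

For a subgroup `H` of finite index of `A`, weights `c` on `A ⧸ H` with `|c| ≤ 1` and a summable
`f : A → ℝ`:  `∑_A c(a mod H) f(a) - (∑_q c q) ∑_H f = ∑_q c q ∑_{h ∈ H} (f (rep q + h) - f h)`.
-/

set_option autoImplicit false

namespace Fermat.Agent.F4Ray

open Fermat.Agent.S14CZ (cosetProdEquiv cosetProdEquiv_apply)

variable {A : Type*} [AddCommGroup A] (H : AddSubgroup A)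

/-- **Abstract weighted comparison.** -/
theorem abs_tsum_weight_sub_le [Fintype (A ⧸ H)] (f : A → ℝ) (g : H → ℝ) (K : A ⧸ H → ℝ)
    (c : A ⧸ H → ℝ) (hc : ∀ q, |c q| ≤ 1)
    (hf : Summable f) (hg : Summable g)
    (hK : ∀ (q : A ⧸ H) (h : H), |f (Quotient.out q + (h : A)) - f (h : A)| ≤ K q * g h) :
    |∑' a : A, c (a : A ⧸ H) * f a - (∑ q, c q) * ∑' h : H, f (h : A)| ≤
      (∑ q, K q) * ∑' h, g h := by
  obtain ⟨F, hFdef⟩ : ∃ F : A → ℝ, ∀ a, F a = c (a : A ⧸ H) * f a := ⟨_, fun _ ↦ rfl⟩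
  have hfH : Summable fun h : H ↦ f (h : A) := hf.subtype _
  have hF : Summable F := by
    refine Summable.of_norm_bounded hf.abs fun a ↦ ?_
    rw [hFdef, Real.norm_eq_abs, abs_mul]
    exact mul_le_of_le_one_left (abs_nonneg _) (hc _)
  have hFe : Summable fun p : (A ⧸ H) × H ↦ F (cosetProdEquiv H p) :=
    (cosetProdEquiv H).summable_iff.mpr hF
  have hfe : Summable fun p : (A ⧸ H) × H ↦ f (cosetProdEquiv H p) :=
    (cosetProdEquiv H).summable_iff.mpr hf
  have hfq : ∀ q : A ⧸ H, Summable fun h : H ↦ f (Quotient.out q + (h : A)) := fun q ↦ by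
    have := hfe.comp_injective (Prod.mk_right_injective q)
    exact this
  have hmk : ∀ (q : A ⧸ H) (h : H), ((Quotient.out q + (h : A) : A) : A ⧸ H) = q := fun q h ↦ by
    rw [QuotientAddGroup.mk_add_of_mem _ h.2]
    exact Quotient.out_eq' q
  have hFq : ∀ q : A ⧸ H, Summable fun h : H ↦ F (Quotient.out q + (h : A)) := fun q ↦ by
    have := hFe.comp_injective (Prod.mk_right_injective q)
    exact this
  have h1 : ∑' a : A, c (a : A ⧸ H) * f a =
      ∑ q : A ⧸ H, c q * ∑' h : H, f (Quotient.out q + (h : A)) := by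
    rw [tsum_congr (fun a ↦ (hFdef a).symm), ← (cosetProdEquiv H).tsum_eq F,
      hFe.tsum_prod' (fun q ↦ hFq q), tsum_fintype]
    refine Finset.sum_congr rfl fun q _ ↦ ?_
    rw [← tsum_mul_left]
    refine tsum_congr fun h ↦ ?_
    rw [cosetProdEquiv_apply, hFdef, hmk]
  rw [h1, Finset.sum_mul, ← Finset.sum_sub_distrib, Finset.sum_mul]
  refine (Finset.abs_sum_le_sum_abs _ _).trans (Finset.sum_le_sum fun q _ ↦ ?_)
  rw [← mul_sub, abs_mul, ← (hfq q).tsum_sub hfH, ← tsum_mul_left]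
  have hsum : Summable fun h : H ↦ f (Quotient.out q + (h : A)) - f (h : A) :=
    (hfq q).sub hfH
  have hbd : Summable fun h : H ↦ K q * g h := hg.mul_left _
  have h2 : |∑' h : H, (f (Quotient.out q + (h : A)) - f (h : A))| ≤ ∑' h : H, K q * g h :=
    calc |∑' h : H, (f (Quotient.out q + (h : A)) - f (h : A))|
        ≤ ∑' h : H, |f (Quotient.out q + (h : A)) - f (h : A)| := by
          have := norm_tsum_le_tsum_norm
            (f := fun h : H ↦ f (Quotient.out q + (h : A)) - f (h : A)) hsum.norm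
          simpa [Real.norm_eq_abs] using this
      _ ≤ ∑' h : H, K q * g h :=
          (hsum.abs).tsum_le_tsum (fun h ↦ hK q h) hbd
  have h3 : 0 ≤ ∑' h : H, K q * g h := (abs_nonneg _).trans h2
  calc |c q| * |∑' h : H, (f (Quotient.out q + (h : A)) - f (h : A))|
      ≤ 1 * ∑' h : H, K q * g h := mul_le_mul (hc q) h2 (abs_nonneg _) zero_le_one
    _ = ∑' h : H, K q * g h := one_mul _

end Fermat.Agent.F4Ray
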