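import Mathlib
import Fermat.Agent.F4.Ray.PredCompare
import Fermat.Agent.S14.CZ.LatticeCompare

/-!
# F4 / GLOB: the smoothed sum over the elements of an ideal `J` prime to `m` satisfying a condition
modulo `m`, compared with the smoothed sum over `J * m`
-/

set_option autoImplicit false
set_option linter.unusedSectionVars false

open NumberField NumberField.InfinitePlace NumberField.mixedEmbedding NumberField.Units
  NumberField.Units.dirichletUnitTheorem Module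

namespace Fermat.Agent.F4Ray

open Fermat.Agent.S14 (czF cutoff)
open Fermat.Agent.S14CZ

open scoped Classical

variable {E : Type*} [Field E] [NumberField E]

/-- The number of residue classes modulo `m` whose representative satisfies `P`. -/
noncomputable def rayCount (m : Ideal (𝓞 E)) (P : 𝓞 E → Prop) : ℕ :=
  Nat.card {r : 𝓞 E ⧸ m // P (Quotient.out r)}

/-- **Comparison with a condition modulo `m`.** -/
theorem predSum_compare {φ0 : logSpace E → ℝ} {L R0 : ℝ} (hφ : CZBump φ0 L R0)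
    (J m : Ideal (𝓞 E)) (hm : m ≠ ⊥) (hJm : J ⊔ m = ⊤) (P : 𝓞 E → Prop)
    (hP : ∀ γ μ : 𝓞 E, μ ∈ m → (P (γ + μ) ↔ P γ)) :
    ∃ B : ℝ, ∀ s : ℝ, 1 ≤ s → s ≤ 2 → Summable (fun γ : J ↦ czTerm φ0 s (γ : 𝓞 E)) →
      |∑' γ : J, (if P (γ : 𝓞 E) then czTerm φ0 s (γ : 𝓞 E) else 0) -
        (rayCount m P : ℝ) * czSum φ0 s (J * m)| ≤ B := by
  obtain ⟨C, hC0, hC⟩ := czTerm_sub_le (E := E) hφ
  have hP' : ∀ γ γ' : 𝓞 E, γ' - γ ∈ m → (P γ' ↔ P γ) := fun γ γ' hsub ↦ by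
    have : γ' = γ + (γ' - γ) := by ring
    rw [this]
    exact hP _ _ hsub
  -- the groups
  set K : AddSubgroup (𝓞 E) := J.toAddSubgroup with hKdef
  set φ : K →+ 𝓞 E ⧸ m := (Ideal.Quotient.mk m).toAddMonoidHom.comp K.subtype with hφdef
  have hφa : ∀ a : K, φ a = Ideal.Quotient.mk m (a : 𝓞 E) := fun a ↦ rfl
  set H : AddSubgroup K := φ.ker with hHdef
  have hmemH : ∀ a : K, a ∈ H ↔ (a : 𝓞 E) ∈ m := fun a ↦ by
    rw [hHdef, AddMonoidHom.mem_ker, hφa, Ideal.Quotient.eq_zero_iff_mem]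
  have hsurj : Function.Surjective φ := by
    intro r
    obtain ⟨x, rfl⟩ := Ideal.Quotient.mk_surjective r
    have h1 : x ∈ J ⊔ m := by rw [hJm]; trivial
    obtain ⟨j, hj, μ, hμ, hjμ⟩ := Submodule.mem_sup.mp h1
    refine ⟨⟨j, hj⟩, ?_⟩
    rw [hφa, Ideal.Quotient.eq, ← hjμ]
    simpa using neg_mem hμ
  let e : K ⧸ H ≃+ 𝓞 E ⧸ m := QuotientAddGroup.quotientKerEquivOfSurjective φ hsurj
  have he : ∀ a : K, e (a : K ⧸ H) = Ideal.Quotient.mk m (a : 𝓞 E) := fun a ↦ rfl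
  have : Finite (𝓞 E ⧸ m) := Ideal.finiteQuotientOfFreeOfNeBot m hm
  let _i1 : Fintype (𝓞 E ⧸ m) := Fintype.ofFinite _
  let _i2 : Fintype (K ⧸ H) := Fintype.ofEquiv _ e.symm.toEquiv
  -- the weights
  obtain ⟨c, hcdef⟩ : ∃ c : K ⧸ H → ℝ,
      ∀ q, c q = if P ((Quotient.out q : K) : 𝓞 E) then 1 else 0 := ⟨_, fun _ ↦ rfl⟩
  have hc1 : ∀ q, |c q| ≤ 1 := fun q ↦ by
    rw [hcdef]
    split_ifs <;> simp
  have houtK : ∀ a : K, ((Quotient.out (a : K ⧸ H) : K) : 𝓞 E) - (a : 𝓞 E) ∈ m := fun a ↦ by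
    have h1 : ((Quotient.out (a : K ⧸ H) : K) : K ⧸ H) = (a : K ⧸ H) := Quotient.out_eq' _
    have h2 : -a + (Quotient.out (a : K ⧸ H) : K) ∈ H := by
      rw [← QuotientAddGroup.eq]
      exact h1.symm
    have h3 := (hmemH _).mp h2
    have : ((Quotient.out (a : K ⧸ H) : K) : 𝓞 E) - (a : 𝓞 E) =
        ((-a + (Quotient.out (a : K ⧸ H) : K) : K) : 𝓞 E) := by
      push_cast; ring
    rw [this]
    exact h3
  have hcmk : ∀ a : K, c (a : K ⧸ H) = if P (a : 𝓞 E) then 1 else 0 := fun a ↦ by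
    rw [hcdef, hP' _ _ (houtK a)]
  -- the count
  have hcount : ∑ q, c q = (rayCount m P : ℝ) := by
    have h1 : ∑ q, c q = ∑ q : K ⧸ H, if P ((Quotient.out q : K) : 𝓞 E) then (1 : ℝ) else 0 :=
      Finset.sum_congr rfl fun q _ ↦ hcdef q
    rw [h1, Finset.sum_boole, rayCount]
    congr 1
    rw [← Fintype.card_subtype, ← Nat.card_eq_fintype_card]
    refine Nat.card_congr (e.toEquiv.subtypeEquiv fun q ↦ ?_)
    refine (hP' _ _ ?_).symm
    rw [← Ideal.Quotient.eq]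
    have h2 : Ideal.Quotient.mk m (Quotient.out (e.toEquiv q)) = e q := Quotient.out_eq' _
    rw [h2, ← he, show ((Quotient.out q : K) : K ⧸ H) = q from Quotient.out_eq' _]
  -- the majorant
  have hg : Summable fun h : H ↦ czMaj E ((h : K) : 𝓞 E) := by
    refine (summable_czMaj (E := E)).comp_injective ?_
    intro a b hab
    exact Subtype.ext (Subtype.ext hab)
  refine ⟨(∑ q : K ⧸ H, (1 + C * (1 + ‖czIota E ((Quotient.out q : K) : 𝓞 E)‖) ^
    (finrank ℚ E + 1))) * ∑' h : H, czMaj E ((h : K) : 𝓞 E), fun s hs1 hs2 hsum ↦ ?_⟩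
  have hf : Summable fun a : K ↦ czTerm φ0 s (a : 𝓞 E) := hsum
  have key := abs_tsum_weight_sub_le H (fun a : K ↦ czTerm φ0 s (a : 𝓞 E))
    (fun h : H ↦ czMaj E ((h : K) : 𝓞 E))
    (fun q ↦ 1 + C * (1 + ‖czIota E ((Quotient.out q : K) : 𝓞 E)‖) ^ (finrank ℚ E + 1))
    c hc1 hf hg (fun q h ↦ by
      have := hC s hs1 hs2 ((Quotient.out q : K) : 𝓞 E) ((h : K) : 𝓞 E)
      simpa using this)
  rw [hcount] at key
  have e1 : ∑' γ : J, (if P (γ : 𝓞 E) then czTerm φ0 s (γ : 𝓞 E) else 0) =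
      ∑' a : K, c (a : K ⧸ H) * czTerm φ0 s (a : 𝓞 E) := by
    refine tsum_congr fun a ↦ ?_
    rw [hcmk]
    split_ifs <;> simp
  have hJm' : J * m = J ⊓ m :=
    Ideal.mul_eq_inf_of_isCoprime ((Ideal.isCoprime_iff_sup_eq).mpr hJm)
  have e2 : czSum φ0 s (J * m) = ∑' h : H, czTerm φ0 s ((h : K) : 𝓞 E) := by
    unfold czSum
    let e' : H ≃ ↥(J * m) :=
      { toFun := fun h ↦ ⟨((h : K) : 𝓞 E), by
          rw [hJm']; exact ⟨(h : K).2, (hmemH _).mp h.2⟩⟩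
        invFun := fun γ ↦ ⟨⟨(γ : 𝓞 E), (Ideal.mul_le_left : J * m ≤ J) γ.2⟩,
          (hmemH _).mpr ((Ideal.mul_le_right : J * m ≤ m) γ.2)⟩
        left_inv := fun h ↦ rfl
        right_inv := fun γ ↦ rfl }
    exact (e'.tsum_eq (fun γ : ↥(J * m) ↦ czTerm φ0 s (γ : 𝓞 E))).symm
  rw [e1, e2]
  exact key

end Fermat.Agent.F4Ray
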