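import Mathlib
import Fermat.Agent.F4.Ray.LBoundDefs
import Fermat.Agent.F4.Ray.ClsBasic
import Fermat.Agent.F4.Ray.PredLattice
import Fermat.Agent.F4.Ray.LatticeSumPred
import Fermat.Agent.S14.CZ.Final

/-!
# F4 / GLOB: the partial zeta functions `Z_{C, g}` (RB4)

`Z_{C, g}(s) = n(P) / (w N(m)) * Y(s) + O(1)` on `(1, 2]`, where `Y` is the smoothed sum over the
ring of integers and `n(P)` is the number of residue classes modulo `m` satisfying the condition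
`P = rayPred m cls (g * cls J)`, `J` a representative prime to `m` of the class `C⁻¹`.
-/

set_option autoImplicit false
set_option linter.unusedSectionVars false

open NumberField NumberField.InfinitePlace NumberField.mixedEmbedding NumberField.Units
  NumberField.Units.dirichletUnitTheorem Module
open scoped nonZeroDivisors

namespace Fermat.Agent.F4Ray

open Fermat.Agent.S14 (czF classZeta cutoff CutoffProps ClassZetaLatticeSum)
open Fermat.Agent.S14CZ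
open Fermat.Agent.FrobDensity (zetaSum)

open scoped Classical

/-- Real-number bookkeeping. -/
lemma ray_real {a b w n s S T Y B₁ B₂ M : ℝ} (ha : 1 ≤ a) (hb : 1 ≤ b) (hw : 0 < w)
    (hn : 0 ≤ n) (hs1 : 1 < s) (hs2 : s ≤ 2) (hY : 0 ≤ Y)
    (h1 : |S - n * T| ≤ B₁) (h2 : |Y - a * b * T| ≤ B₂) (hYM : (s - 1) * Y ≤ M) :
    |a ^ s / w * S - n / (w * b) * Y| ≤ (a ^ 2 * B₁ + n * a / b * B₂ + n / b * (a + 1) * M) / w := by
  have ha0 : 0 < a := by linarith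
  have hb0 : 0 < b := by linarith
  have has : a ^ s ≤ a ^ 2 := by
    have := Real.rpow_le_rpow_of_exponent_le ha hs2
    rwa [Real.rpow_two] at this
  have has0 : 0 ≤ a ^ s := Real.rpow_nonneg ha0.le _
  have hB₁ : 0 ≤ B₁ := (abs_nonneg _).trans h1
  have hB₂ : 0 ≤ B₂ := (abs_nonneg _).trans h2
  have hat0 : 0 ≤ a ^ (s - 1) := Real.rpow_nonneg ha0.le _
  have hat : a ^ (s - 1) ≤ a := by
    have := Real.rpow_le_rpow_of_exponent_le ha (by linarith : s - 1 ≤ 1)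
    rwa [Real.rpow_one] at this
  have hpow : |a ^ (s - 1) - 1| ≤ (s - 1) * (a + 1) := by
    have := abs_rpow_sub_rpow_le ha (le_refl (1 : ℝ)) (by linarith : 0 ≤ s - 1)
      (by linarith : s - 1 ≤ 1)
    rwa [Real.one_rpow] at this
  have hasplit : a ^ s = a * a ^ (s - 1) := by
    rw [show s = 1 + (s - 1) by ring, Real.rpow_add ha0, Real.rpow_one]
    simp
  have hmain : a ^ s * S - n / b * Y =
      a ^ s * (S - n * T) - n * a ^ (s - 1) / b * (Y - a * b * T) +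
        n / b * (a ^ (s - 1) - 1) * Y := by
    rw [hasplit]; field_simp; ring
  have hnb : 0 ≤ n / b := div_nonneg hn hb0.le
  have e1 : |a ^ s * (S - n * T)| ≤ a ^ 2 * B₁ := by
    rw [abs_mul, abs_of_nonneg has0]
    exact mul_le_mul has h1 (abs_nonneg _) (by positivity)
  have e2 : |n * a ^ (s - 1) / b * (Y - a * b * T)| ≤ n * a / b * B₂ := by
    rw [abs_mul, abs_of_nonneg (by positivity : (0 : ℝ) ≤ n * a ^ (s - 1) / b)]
    refine mul_le_mul ?_ h2 (abs_nonneg _) (by positivity)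
    exact div_le_div_of_nonneg_right (mul_le_mul_of_nonneg_left hat hn) hb0.le
  have e3 : |n / b * (a ^ (s - 1) - 1) * Y| ≤ n / b * (a + 1) * M := by
    rw [abs_mul, abs_mul, abs_of_nonneg hnb, abs_of_nonneg hY]
    calc n / b * |a ^ (s - 1) - 1| * Y
        ≤ n / b * ((s - 1) * (a + 1)) * Y := by
          apply mul_le_mul_of_nonneg_right _ hY
          exact mul_le_mul_of_nonneg_left hpow hnb
      _ = n / b * (a + 1) * ((s - 1) * Y) := by ring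
      _ ≤ n / b * (a + 1) * M :=
          mul_le_mul_of_nonneg_left hYM (by positivity)
  have hfin : |a ^ s * S - n / b * Y| ≤ a ^ 2 * B₁ + n * a / b * B₂ + n / b * (a + 1) * M := by
    rw [hmain]
    calc _ ≤ |a ^ s * (S - n * T) - n * a ^ (s - 1) / b * (Y - a * b * T)| +
          |n / b * (a ^ (s - 1) - 1) * Y| := abs_add_le _ _
      _ ≤ (|a ^ s * (S - n * T)| + |n * a ^ (s - 1) / b * (Y - a * b * T)|) +
          |n / b * (a ^ (s - 1) - 1) * Y| := by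
          gcongr
          exact abs_sub _ _
      _ ≤ _ := by linarith
  have : a ^ s / w * S - n / (w * b) * Y = (a ^ s * S - n / b * Y) / w := by
    field_simp
  rw [this, abs_div, abs_of_pos hw]
  exact div_le_div_of_nonneg_right hfin hw.le

variable {E : Type} [Field E] [NumberField E]

/-- The element `⊤` of `(Ideal (𝓞 E))⁰`. -/
noncomputable def topIdeal0 (E : Type) [Field E] [NumberField E] : (Ideal (𝓞 E))⁰ :=
  ⟨⊤, mem_nonZeroDivisors_of_ne_zero (by simp)⟩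

lemma mk0_topIdeal0 : ClassGroup.mk0 (topIdeal0 E) = (1 : ClassGroup (𝓞 E))⁻¹ := by
  rw [inv_one]
  exact (ClassGroup.mk0_eq_one_iff _).mpr inferInstance

/-- The smoothed sum over the ring of integers: summability and `(s - 1) Y(s) = O(1)`. -/
lemma czSum_top_bound (E : Type) [Field E] [NumberField E] :
    ∃ M : ℝ, ∀ s : ℝ, 1 < s → s ≤ 2 →
      Summable (fun γ : (⊤ : Ideal (𝓞 E)) ↦ czTerm (cutoff E) s (γ : 𝓞 E)) ∧
      0 ≤ czSum (cutoff E) s (⊤ : Ideal (𝓞 E)) ∧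
      (s - 1) * czSum (cutoff E) s (⊤ : Ideal (𝓞 E)) ≤ M := by
  obtain ⟨L, R0, hφ⟩ := czBump_cutoff Fermat.Agent.S14.cutoffProps E
  obtain ⟨M, hM0, hM⟩ := exists_sub_one_mul_zetaSum_le E
  have hw : (0 : ℝ) < (torsionOrder E : ℝ) := by
    exact_mod_cast Nat.pos_of_ne_zero (torsionOrder_ne_zero E)
  refine ⟨(torsionOrder E : ℝ) * M, fun s hs1 hs2 ↦ ?_⟩
  obtain ⟨sum1, eq1⟩ := Fermat.Agent.S14.classZetaLatticeSum E 1 (topIdeal0 E) mk0_topIdeal0 s hs1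
  have hY0 : 0 ≤ czSum (cutoff E) s (⊤ : Ideal (𝓞 E)) :=
    tsum_nonneg fun γ ↦ czTerm_nonneg hφ s _
  refine ⟨sum1, hY0, ?_⟩
  have eq2 : classZeta E 1 s = 1 / (torsionOrder E : ℝ) * czSum (cutoff E) s (⊤ : Ideal (𝓞 E)) := by
    rw [eq1]
    have : Ideal.absNorm ((topIdeal0 E : (Ideal (𝓞 E))⁰) : Ideal (𝓞 E)) = 1 := Ideal.absNorm_top
    rw [this, Nat.cast_one, Real.one_rpow]
    rfl
  have eq3 : czSum (cutoff E) s (⊤ : Ideal (𝓞 E)) = (torsionOrder E : ℝ) * classZeta E 1 s := by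
    rw [eq2]; field_simp
  have hZM : (s - 1) * classZeta E 1 s ≤ M :=
    (mul_le_mul_of_nonneg_left (classZeta_le_zetaSum E 1 hs1) (by linarith)).trans
      (hM s hs1 hs2)
  rw [eq3]
  calc (s - 1) * ((torsionOrder E : ℝ) * classZeta E 1 s)
      = (torsionOrder E : ℝ) * ((s - 1) * classZeta E 1 s) := by ring
    _ ≤ (torsionOrder E : ℝ) * M := mul_le_mul_of_nonneg_left hZM hw.le

/-- The index of an ideal in the ring of integers. -/
lemma relIndex_top (I : Ideal (𝓞 E)) :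
    I.toAddSubgroup.relIndex (⊤ : Ideal (𝓞 E)).toAddSubgroup = Ideal.absNorm I := by
  rw [Submodule.top_toAddSubgroup, AddSubgroup.relIndex_top_right, Ideal.absNorm_apply,
    Submodule.cardQuot_apply]
  rfl

variable {m : Ideal (𝓞 E)} {G : Type} [CommGroup G] {cls : Ideal (𝓞 E) → G}

/-- The ideals of the class `C`, prime to `m`, of value `g`, in terms of the generators of
`I * J`. -/
lemma rayZC_set_iff (h : RayClassMap E m G cls) (C : ClassGroup (𝓞 E)) (J : (Ideal (𝓞 E))⁰)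
    (hJ : ClassGroup.mk0 J = C⁻¹) (hJm : (J : Ideal (𝓞 E)) ⊔ m = ⊤) (g : G)
    (I : (Ideal (𝓞 E))⁰) :
    (ClassGroup.mk0 I = C ∧ (I : Ideal (𝓞 E)) ⊔ m = ⊤ ∧ cls (I : Ideal (𝓞 E)) = g) ↔
    (ClassGroup.mk0 I = C ∧ ∃ γ : 𝓞 E, Ideal.span {γ} = (I : Ideal (𝓞 E)) * (J : Ideal (𝓞 E)) ∧
      rayPred m cls (g * cls (J : Ideal (𝓞 E))) γ) := by
  have hIJ0 : (I : Ideal (𝓞 E)) * (J : Ideal (𝓞 E)) ≠ ⊥ := by
    have := nonZeroDivisors.coe_ne_zero (I * J)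
    simpa using this
  have hγ0 : ∀ γ : 𝓞 E, Ideal.span {γ} = (I : Ideal (𝓞 E)) * (J : Ideal (𝓞 E)) → γ ≠ 0 := by
    intro γ hγ h0
    rw [h0] at hγ
    exact hIJ0 (hγ.symm.trans (Ideal.span_singleton_eq_bot.mpr rfl))
  constructor
  · rintro ⟨hC, hIm, hg⟩
    refine ⟨hC, ?_⟩
    have hprin : ((I : Ideal (𝓞 E)) * (J : Ideal (𝓞 E))).IsPrincipal := by
      have h1 : ClassGroup.mk0 (I * J) = 1 := by rw [map_mul, hC, hJ, mul_inv_cancel]
      have h2 := (ClassGroup.mk0_eq_one_iff (I * J).2).mp h1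
      simpa using h2
    obtain ⟨γ, hγ⟩ := hprin
    have hγ' : Ideal.span {γ} = (I : Ideal (𝓞 E)) * (J : Ideal (𝓞 E)) := hγ.symm
    refine ⟨γ, hγ', ?_⟩
    have hcop : Ideal.span {γ} ⊔ m = ⊤ := by
      rw [hγ']
      exact Ideal.isCoprime_iff_sup_eq.mp
        (IsCoprime.mul_left (Ideal.isCoprime_iff_sup_eq.mpr hIm)
          (Ideal.isCoprime_iff_sup_eq.mpr hJm))
    rw [rayPred_iff h _ (hγ0 γ hγ') hcop, hγ', h.mul _ _ hIm hJm, hg]
  · rintro ⟨hC, γ, hγ, hP⟩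
    have hcop : Ideal.span {γ} ⊔ m = ⊤ := hP.1
    have hIm : (I : Ideal (𝓞 E)) ⊔ m = ⊤ := by
      rw [eq_top_iff, ← hcop, hγ]
      exact sup_le_sup_right Ideal.mul_le_left _
    refine ⟨hC, hIm, ?_⟩
    have h1 := (rayPred_iff h _ (hγ0 γ hγ) hcop).mp hP
    rw [hγ, h.mul _ _ hIm hJm] at h1
    exact mul_right_cancel h1

/-- **(RB5)** `Z_{C, g}(s) = n(P) / (w N(m)) * Y(s) + O(1)`. -/
theorem rayZC_approx (h : RayClassMap E m G cls) (C : ClassGroup (𝓞 E)) (J : (Ideal (𝓞 E))⁰)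
    (hJ : ClassGroup.mk0 J = C⁻¹) (hJm : (J : Ideal (𝓞 E)) ⊔ m = ⊤) (g : G) :
    ∃ B : ℝ, ∀ s : ℝ, 1 < s → s ≤ 2 →
      |rayZC E m cls C g s -
        (rayCount m (rayPred m cls (g * cls (J : Ideal (𝓞 E)))) : ℝ) /
          ((torsionOrder E : ℝ) * (Ideal.absNorm m : ℝ)) *
          czSum (cutoff E) s (⊤ : Ideal (𝓞 E))| ≤ B := by
  obtain ⟨L, R0, hφ⟩ := czBump_cutoff Fermat.Agent.S14.cutoffProps E
  obtain ⟨M, hM⟩ := czSum_top_bound E
  have hJ0 : (J : Ideal (𝓞 E)) ≠ ⊥ := nonZeroDivisors.coe_ne_zero J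
  have hJm0 : (J : Ideal (𝓞 E)) * m ≠ ⊥ := mul_ne_zero hJ0 h.m_ne_bot
  obtain ⟨B₁, hB₁⟩ := predSum_compare hφ (J : Ideal (𝓞 E)) m h.m_ne_bot hJm
    (rayPred m cls (g * cls (J : Ideal (𝓞 E)))) (fun γ μ hμ ↦ rayPred_add_mem _ hμ)
  obtain ⟨B₂, hB₂⟩ := czSum_compare hφ (⊤ : Ideal (𝓞 E)) ((J : Ideal (𝓞 E)) * m) hJm0 le_top
  rw [relIndex_top, map_mul, Nat.cast_mul] at hB₂
  have ha : (1 : ℝ) ≤ (Ideal.absNorm (J : Ideal (𝓞 E)) : ℝ) := by
    exact_mod_cast Nat.one_le_iff_ne_zero.mpr (Ideal.absNorm_ne_zero_of_nonZeroDivisors J)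
  have hb : (1 : ℝ) ≤ (Ideal.absNorm m : ℝ) := by
    have : Ideal.absNorm m ≠ 0 := fun h0 ↦ h.m_ne_bot (Ideal.absNorm_eq_zero_iff.mp h0)
    exact_mod_cast Nat.one_le_iff_ne_zero.mpr this
  have hw : (0 : ℝ) < (torsionOrder E : ℝ) := by
    exact_mod_cast Nat.pos_of_ne_zero (torsionOrder_ne_zero E)
  have hn : (0 : ℝ) ≤ (rayCount m (rayPred m cls (g * cls (J : Ideal (𝓞 E)))) : ℝ) :=
    Nat.cast_nonneg _
  refine ⟨((Ideal.absNorm (J : Ideal (𝓞 E)) : ℝ) ^ 2 * B₁ +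
    (rayCount m (rayPred m cls (g * cls (J : Ideal (𝓞 E)))) : ℝ) *
      (Ideal.absNorm (J : Ideal (𝓞 E)) : ℝ) / (Ideal.absNorm m : ℝ) * B₂ +
    (rayCount m (rayPred m cls (g * cls (J : Ideal (𝓞 E)))) : ℝ) / (Ideal.absNorm m : ℝ) *
      ((Ideal.absNorm (J : Ideal (𝓞 E)) : ℝ) + 1) * M) / (torsionOrder E : ℝ),
    fun s hs1 hs2 ↦ ?_⟩
  obtain ⟨sumJ, -⟩ := Fermat.Agent.S14.classZetaLatticeSum E C J hJ s hs1
  obtain ⟨-, eqP⟩ := classZetaLatticeSumPred E C J hJ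
    (rayPred m cls (g * cls (J : Ideal (𝓞 E)))) (fun u γ ↦ rayPred_unit_mul _ u γ) s hs1
  obtain ⟨sumY, hY0, hYM⟩ := hM s hs1 hs2
  have k1 := hB₁ s hs1.le hs2 sumJ
  have k2 := hB₂ s hs1.le hs2 sumY
  have eqZ : rayZC E m cls C g s =
      ((Ideal.absNorm (J : Ideal (𝓞 E)) : ℕ) : ℝ) ^ s / (torsionOrder E : ℝ) *
        ∑' γ : (J : Ideal (𝓞 E)),
          (if rayPred m cls (g * cls (J : Ideal (𝓞 E))) (γ : 𝓞 E)
            then czTerm (cutoff E) s (γ : 𝓞 E) else 0) := by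
    refine Eq.trans ?_ eqP
    unfold rayZC
    exact (Equiv.subtypeEquivRight (rayZC_set_iff h C J hJ hJm g)).tsum_eq
      (fun I ↦ ((Ideal.absNorm ((I : (Ideal (𝓞 E))⁰) : Ideal (𝓞 E)) : ℕ) : ℝ) ^ (-s))
  rw [eqZ]
  exact ray_real ha hb hw hn hs1 hs2 hY0 k1 k2 hYM

/-- **(RB4)** -/
theorem rayZCShiftBounded : RayZCShiftBounded := by
  intro E _ _ m G _ _ cls h 𝔠 h𝔠 C g
  obtain ⟨J, hJ, hJm⟩ := exists_rep_coprime h.m_ne_bot C⁻¹
  have hJ𝔠 : ClassGroup.mk0 (J * 𝔠) = (C * (ClassGroup.mk0 𝔠)⁻¹)⁻¹ := by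
    rw [map_mul, hJ, mul_inv, inv_inv]
  have hJ𝔠m : ((J * 𝔠 : (Ideal (𝓞 E))⁰) : Ideal (𝓞 E)) ⊔ m = ⊤ := by
    rw [Submonoid.coe_mul]
    exact Ideal.isCoprime_iff_sup_eq.mp
      (IsCoprime.mul_left (Ideal.isCoprime_iff_sup_eq.mpr hJm)
        (Ideal.isCoprime_iff_sup_eq.mpr h𝔠))
  obtain ⟨B₁, hB₁⟩ := rayZC_approx h C J hJ hJm (g * cls (𝔠 : Ideal (𝓞 E)))
  obtain ⟨B₂, hB₂⟩ := rayZC_approx h (C * (ClassGroup.mk0 𝔠)⁻¹) (J * 𝔠) hJ𝔠 hJ𝔠m g
  have hg : g * cls (((J * 𝔠 : (Ideal (𝓞 E))⁰)) : Ideal (𝓞 E)) =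
      g * cls (𝔠 : Ideal (𝓞 E)) * cls (J : Ideal (𝓞 E)) := by
    rw [Submonoid.coe_mul, h.mul _ _ hJm h𝔠, mul_assoc, mul_comm (cls (J : Ideal (𝓞 E)))]
  rw [hg] at hB₂
  refine ⟨B₁ + B₂, fun s hs1 hs2 ↦ ?_⟩
  have k1 := hB₁ s hs1 hs2
  have k2 := hB₂ s hs1 hs2
  rw [abs_le] at k1 k2 ⊢
  constructor <;> linarith [k1.1, k1.2, k2.1, k2.2]

end Fermat.Agent.F4Ray
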